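/-
S53, Part A (abstract pro-representability): shared DEFINITIONS.  FROZEN, no `sorry`.

Notation in comments: `Pol = MvPolynomial X 𝒪`, `k = ResidueField 𝒪`,
a *point* `p` is an admissible lift `p.r : X → p.A` over an Artinian test algebra,
`p.ev : Pol → p.A` the evaluation, `p.ker` its kernel, `m0 = ker (Pol → k)`.
-/
import Fermat.Agent.S53.Defs

set_option autoImplicit false

namespace Fermat.Agent.S53

open IsLocalRing GaloisRep

variable {𝒪 : Type} [CommRing 𝒪] [IsLocalRing 𝒪] {X : Type}

/-- A point of a lifting problem: an admissible lift over an Artinian test algebra. -/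
structure LiftProblem.Pt (P : LiftProblem 𝒪 X) : Type 1 where
  A : Type
  [instCommRing : CommRing A]
  [instIsLocalRing : IsLocalRing A]
  [instAlgebra : Algebra 𝒪 A]
  art : IsArtinianTestAlgebra 𝒪 A
  r : X → A
  hr : P.F r

attribute [instance] LiftProblem.Pt.instCommRing LiftProblem.Pt.instIsLocalRing
  LiftProblem.Pt.instAlgebra

variable {P : LiftProblem 𝒪 X}

/-- Evaluation of polynomials at a point. -/
noncomputable def LiftProblem.Pt.ev (p : P.Pt) : MvPolynomial X 𝒪 →ₐ[𝒪] p.A :=
  MvPolynomial.aeval p.r

/-- The kernel of the evaluation at a point. -/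
noncomputable def LiftProblem.Pt.ker (p : P.Pt) : Ideal (MvPolynomial X 𝒪) :=
  RingHom.ker p.ev

/-- A point is *generated* if its algebra is generated over `𝒪` by the values of the lift. -/
def LiftProblem.Pt.IsGen (p : P.Pt) : Prop := Function.Surjective p.ev

variable (P) in
/-- The kernel of the evaluation at the residual family `rbar : X → k`. -/
noncomputable def LiftProblem.m0 : Ideal (MvPolynomial X 𝒪) :=
  RingHom.ker (MvPolynomial.aeval P.rbar : MvPolynomial X 𝒪 →ₐ[𝒪] ResidueField 𝒪)

variable (P) in
/-- A tower: uniform generators `t` and, for each `n`, a generated point `pt n` whose kernel is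
the least kernel of a point containing `m0 ^ (n+1)`. -/
structure LiftProblem.Tower : Type 1 where
  N : ℕ
  t : Fin N → MvPolynomial X 𝒪
  ht : ∀ i, t i ∈ P.m0
  pt : ℕ → P.Pt
  gen : ∀ n, (pt n).IsGen
  level : ∀ n, P.m0 ^ (n + 1) ≤ (pt n).ker
  least : ∀ n (q : P.Pt), P.m0 ^ (n + 1) ≤ q.ker → (pt n).ker ≤ q.ker
  span : ∀ n, Ideal.span (Set.range fun i => (pt n).ev (t i)) = maximalIdeal (pt n).A

namespace LiftProblem.Tower

variable (T : P.Tower)

/-- `Y_i ↦ t_i`. -/
noncomputable def gens : MvPolynomial (Fin T.N) 𝒪 →ₐ[𝒪] MvPolynomial X 𝒪 :=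
  MvPolynomial.aeval T.t

/-- `Y_i ↦ (pt n).ev t_i`. -/
noncomputable def polyMap (n : ℕ) : MvPolynomial (Fin T.N) 𝒪 →ₐ[𝒪] (T.pt n).A :=
  (T.pt n).ev.comp T.gens

/-- The power series ring in the uniform generators. -/
abbrev PS : Type := MvPowerSeries (Fin T.N) 𝒪

/-- The ideal of `PS` generated by the variables. -/
noncomputable def I : Ideal T.PS :=
  Ideal.span (Set.range (MvPowerSeries.X : Fin T.N → T.PS))

/-- The underlying function of the projection `PS → (pt n).A`:
truncate in total degree `< n+1`, then evaluate. -/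
noncomputable def projFun (n : ℕ) (s : T.PS) : (T.pt n).A :=
  T.polyMap n (MvPowerSeries.truncTotal (n + 1) s)

/-- The constant-coefficient map as an `𝒪`-algebra homomorphism (only used for a junk value). -/
noncomputable def constCoeffAlgHom : T.PS →ₐ[𝒪] 𝒪 :=
  { (MvPowerSeries.constantCoeff : T.PS →+* 𝒪) with
    commutes' := fun r => by
      change MvPowerSeries.constantCoeff (MvPowerSeries.C r) = r
      exact MvPowerSeries.constantCoeff_C r }

open Classical in
/-- The projection `PS → (pt n).A` as an algebra homomorphism (see `proj_apply`; the `else`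
branch is junk and never occurs for a tower of a lifting problem satisfying the axioms). -/
noncomputable def proj (n : ℕ) : T.PS →ₐ[𝒪] (T.pt n).A :=
  if h : ∃ π : T.PS →ₐ[𝒪] (T.pt n).A, ∀ s, π s = T.projFun n s then h.choose
  else (Algebra.ofId 𝒪 (T.pt n).A).comp T.constCoeffAlgHom

/-- The intersection of the kernels of all projections. -/
noncomputable def b : Ideal T.PS := ⨅ n, RingHom.ker (T.proj n)

/-- A limit of the tower: a noetherian local `𝒪`-algebra `R` with compatible surjections onto
all `(pt n).A`, jointly injective, with kernels the powers of the maximal ideal, and such that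
every compatible family of elements lifts. -/
structure Lim : Type 1 where
  R : Type
  [instCommRing : CommRing R]
  [instIsLocalRing : IsLocalRing R]
  [instIsNoetherianRing : IsNoetherianRing R]
  [instAlgebra : Algebra 𝒪 R]
  π : ∀ n, R →ₐ[𝒪] (T.pt n).A
  π_surj : ∀ n, Function.Surjective (π n)
  π_compat : ∀ (n : ℕ) (x : R) (f : MvPolynomial X 𝒪),
    π (n + 1) x = (T.pt (n + 1)).ev f → π n x = (T.pt n).ev f
  π_sep : ∀ x : R, (∀ n, π n x = 0) → x = 0
  π_lim : ∀ f : ℕ → MvPolynomial X 𝒪, (∀ n, f (n + 1) - f n ∈ (T.pt n).ker) →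
    ∃ x : R, ∀ n, π n x = (T.pt n).ev (f n)
  ker_π : ∀ n, RingHom.ker (π n) = maximalIdeal R ^ (n + 1)

attribute [instance] Lim.instCommRing Lim.instIsLocalRing Lim.instIsNoetherianRing
  Lim.instAlgebra

end LiftProblem.Tower

end Fermat.Agent.S53
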