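/-
S53 Part A (abstract pro-representability), work package A6a (generators of the maximal ideal generate the algebra).
STATEMENTS ARE FROZEN (squad interface): do not change them.  Replace each `sorry` by a proof.
Helper lemmas: add them in THIS file, inside `namespace Fermat.Agent.S53`, names prefixed `genSurj_`.
You may import and use any other S53 file (statements there may still be `sorry`), as long as
no import cycle arises (see the imports of `Fermat/Agent/S53/Abstract.lean` for the order).
Notation: Pol = MvPolynomial X 𝒪, k = ResidueField 𝒪, p.ev : Pol → p.A, p.ker = ker p.ev,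
m0 = ker (Pol → k).  See PtDefs.lean.
Proof: let `B` be the range.  By induction on `j`:
`maximalIdeal A ^ j ≤ (B ⊓ m^j) + m^(j+1)` (as additive subgroups), hence `A = B + m^j`
for all `j`; conclude with T7 (`m^n = ⊥`).
-/
import Fermat.Agent.S53.Abstract.PtDefs
import Fermat.Agent.S53.ArtTest

set_option autoImplicit false

namespace Fermat.Agent.S53

open IsLocalRing GaloisRep

variable {𝒪 : Type} [CommRing 𝒪] [IsDomain 𝒪] [IsDiscreteValuationRing 𝒪]
  [Finite (ResidueField 𝒪)] {X : Type} {P : LiftProblem 𝒪 X}

/-- Approximation step: every element of `A` is, modulo `m ^ j`, in the range of `aeval a`. -/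
theorem genSurj_approx {A : Type} [CommRing A] [IsLocalRing A]
    [Algebra 𝒪 A] (hA : IsArtinianTestAlgebra 𝒪 A) {N : ℕ} (a : Fin N → A)
    (ha : Ideal.span (Set.range a) = maximalIdeal A) (j : ℕ) (x : A) :
    ∃ f : MvPolynomial (Fin N) 𝒪, x - MvPolynomial.aeval a f ∈ maximalIdeal A ^ j := by
  induction j generalizing x with
  | zero => exact ⟨0, by simp⟩
  | succ j ih =>
    -- every element of the maximal ideal is in `range + m ^ (j+1)`
    have hm : ∀ y ∈ maximalIdeal A,
        ∃ f : MvPolynomial (Fin N) 𝒪, y - MvPolynomial.aeval a f ∈ maximalIdeal A ^ (j + 1) := by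
      intro y hy
      rw [← ha] at hy
      obtain ⟨c, rfl⟩ := (Ideal.mem_span_range_iff_exists_fun).1 hy
      choose g hg using fun i => ih (c i)
      refine ⟨∑ i, g i * MvPolynomial.X i, ?_⟩
      have h1 : ∑ i, c i * a i - MvPolynomial.aeval a (∑ i, g i * MvPolynomial.X i)
          = ∑ i, (c i - MvPolynomial.aeval a (g i)) * a i := by
        simp [sub_mul, Finset.sum_sub_distrib]
      rw [h1]
      refine Ideal.sum_mem _ fun i _ => ?_
      rw [pow_succ]
      refine Ideal.mul_mem_mul (hg i) ?_
      rw [← ha]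
      exact Ideal.subset_span ⟨i, rfl⟩
    obtain ⟨c, hc⟩ := hA.residue_surjective (IsLocalRing.residue A x)
    have hxm : x - algebraMap 𝒪 A c ∈ maximalIdeal A := by
      rw [← IsLocalRing.residue_eq_zero_iff, map_sub, sub_eq_zero]
      exact hc.symm
    obtain ⟨f, hf⟩ := hm _ hxm
    refine ⟨MvPolynomial.C c + f, ?_⟩
    have h2 : x - MvPolynomial.aeval a (MvPolynomial.C c + f)
        = x - algebraMap 𝒪 A c - MvPolynomial.aeval a f := by
      simp [sub_sub]
    rw [h2]
    exact hf

/-- A6a. If `a : Fin N → A` generates the maximal ideal of an Artinian test algebra `A`,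
then `A` is generated by `a` as an `𝒪`-algebra. -/
theorem aeval_surjective_of_span_eq_maximalIdeal {A : Type} [CommRing A] [IsLocalRing A]
    [Algebra 𝒪 A] (hA : IsArtinianTestAlgebra 𝒪 A) {N : ℕ} (a : Fin N → A)
    (ha : Ideal.span (Set.range a) = maximalIdeal A) :
    Function.Surjective (MvPolynomial.aeval a : MvPolynomial (Fin N) 𝒪 →ₐ[𝒪] A) := by
  have : IsArtinianRing A := hA.isArtinian
  obtain ⟨n, hn⟩ := IsArtinianRing.isNilpotent_jacobson_bot (R := A)
  rw [IsLocalRing.jacobson_eq_maximalIdeal ⊥ bot_ne_top, Ideal.zero_eq_bot] at hn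
  intro x
  obtain ⟨f, hf⟩ := genSurj_approx hA a ha n x
  rw [hn, Ideal.mem_bot, sub_eq_zero] at hf
  exact ⟨f, hf.symm⟩

end Fermat.Agent.S53
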