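/-
S53 Part A (abstract pro-representability), work package A1 (basic properties of points).
STATEMENTS ARE FROZEN (squad interface): do not change them.  Replace each `sorry` by a proof.
Helper lemmas: add them in THIS file, inside `namespace Fermat.Agent.S53`, names prefixed `ptBasic_`.
You may import and use any other S53 file (statements there may still be `sorry`), as long as
no import cycle arises (see the imports of `Fermat/Agent/S53/Abstract.lean` for the order).
Notation: Pol = MvPolynomial X 𝒪, k = ResidueField 𝒪, p.ev : Pol → p.A, p.ker = ker p.ev,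
m0 = ker (Pol → k).  See PtDefs.lean.
Key fact: `residue p.A ∘ p.ev = ResidueField.map (algebraMap 𝒪 p.A) ∘ aeval P.rbar`
(check on `C a` and `X x`, using `hP.residue`), with `p.art.isLocalHom` as instance.
-/
import Fermat.Agent.S53.Abstract.PtDefs
import Fermat.Agent.S53.ArtTest

set_option autoImplicit false

namespace Fermat.Agent.S53

open IsLocalRing GaloisRep

variable {𝒪 : Type} [CommRing 𝒪] [IsDomain 𝒪] [IsDiscreteValuationRing 𝒪]
  [Finite (ResidueField 𝒪)] {X : Type} {P : LiftProblem 𝒪 X}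

/-- The evaluation at the residual family is surjective. -/
theorem ptBasic_aeval_rbar_surjective (P : LiftProblem 𝒪 X) :
    Function.Surjective (MvPolynomial.aeval P.rbar : MvPolynomial X 𝒪 →ₐ[𝒪] ResidueField 𝒪) := by
  intro y
  obtain ⟨a, rfl⟩ := IsLocalRing.residue_surjective y
  refine ⟨MvPolynomial.C a, ?_⟩
  rw [MvPolynomial.aeval_C]
  rfl

/-- A1.1 -/
theorem LiftProblem.m0_isMaximal (P : LiftProblem 𝒪 X) : P.m0.IsMaximal :=
  RingHom.ker_isMaximal_of_surjective _ (ptBasic_aeval_rbar_surjective P)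

/-- Key fact: the residue of the evaluation at a point is the evaluation at the residual
family, followed by the map of residue fields. -/
theorem ptBasic_residue_ev (hP : P.Axioms) (p : P.Pt) (f : MvPolynomial X 𝒪) :
    haveI := p.art.isLocalHom
    IsLocalRing.residue p.A (p.ev f) =
      IsLocalRing.ResidueField.map (algebraMap 𝒪 p.A)
        ((MvPolynomial.aeval P.rbar : MvPolynomial X 𝒪 →ₐ[𝒪] ResidueField 𝒪) f) := by
  haveI := p.art.isLocalHom
  have key : (IsLocalRing.residue p.A).comp (p.ev : MvPolynomial X 𝒪 →+* p.A) =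
      (IsLocalRing.ResidueField.map (algebraMap 𝒪 p.A)).comp
        ((MvPolynomial.aeval P.rbar : MvPolynomial X 𝒪 →ₐ[𝒪] ResidueField 𝒪) :
          MvPolynomial X 𝒪 →+* ResidueField 𝒪) := by
    apply MvPolynomial.ringHom_ext
    · intro a
      simp only [RingHom.comp_apply, RingHom.coe_coe, LiftProblem.Pt.ev, MvPolynomial.aeval_C]
      rw [IsLocalRing.ResidueField.algebraMap_eq, IsLocalRing.ResidueField.map_residue]
    · intro x
      simp only [RingHom.comp_apply, RingHom.coe_coe, LiftProblem.Pt.ev, MvPolynomial.aeval_X]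
      obtain ⟨a, ha⟩ := IsLocalRing.residue_surjective (P.rbar x)
      have h := hP.residue p.art p.hr x a ha
      rw [← ha, IsLocalRing.ResidueField.map_residue]
      rw [← sub_eq_zero, ← map_sub]
      exact (IsLocalRing.residue_eq_zero_iff _).mpr h
  exact congrArg (fun φ : MvPolynomial X 𝒪 →+* ResidueField p.A => φ f) key

/-- A1.2 `ev⁻¹(m_A) = m0`. -/
theorem LiftProblem.Pt.comap_maximalIdeal (hP : P.Axioms) (p : P.Pt) :
    (maximalIdeal p.A).comap p.ev = P.m0 := by
  haveI := p.art.isLocalHom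
  ext f
  rw [Ideal.mem_comap, ← IsLocalRing.residue_eq_zero_iff, ptBasic_residue_ev hP p f,
    LiftProblem.m0, RingHom.mem_ker]
  exact map_eq_zero_iff _ (IsLocalRing.ResidueField.map (algebraMap 𝒪 p.A)).injective

/-- A1.3 -/
theorem LiftProblem.Pt.ker_le_m0 (hP : P.Axioms) (p : P.Pt) : p.ker ≤ P.m0 := by
  rw [← LiftProblem.Pt.comap_maximalIdeal hP p]
  intro f hf
  rw [LiftProblem.Pt.ker, RingHom.mem_ker] at hf
  rw [Ideal.mem_comap, hf]
  exact Ideal.zero_mem _

/-- A1.4 For a generated point, `ev(m0) = m_A`. -/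
theorem LiftProblem.Pt.map_m0 (hP : P.Axioms) (p : P.Pt) (hg : p.IsGen) :
    P.m0.map p.ev = maximalIdeal p.A := by
  rw [← LiftProblem.Pt.comap_maximalIdeal hP p]
  exact Ideal.map_comap_of_surjective p.ev hg _

/-- A1.5 -/
theorem LiftProblem.Pt.pow_le_ker (hP : P.Axioms) (p : P.Pt) (n : ℕ)
    (h : maximalIdeal p.A ^ n = ⊥) : P.m0 ^ n ≤ p.ker := by
  have h1 : (P.m0 ^ n).map p.ev ≤ ⊥ := by
    rw [Ideal.map_pow, ← h, ← LiftProblem.Pt.comap_maximalIdeal hP p]
    exact Ideal.pow_right_mono Ideal.map_comap_le n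
  intro f hf
  have h2 : p.ev f ∈ (P.m0 ^ n).map p.ev := Ideal.mem_map_of_mem _ hf
  have h3 := h1 h2
  rw [Ideal.mem_bot] at h3
  rw [LiftProblem.Pt.ker, RingHom.mem_ker]
  exact h3

/-- A1.6 -/
theorem LiftProblem.Pt.pow_eq_bot (hP : P.Axioms) (p : P.Pt) (hg : p.IsGen) (n : ℕ)
    (h : P.m0 ^ n ≤ p.ker) : maximalIdeal p.A ^ n = ⊥ := by
  rw [← LiftProblem.Pt.map_m0 hP p hg, ← Ideal.map_pow, eq_bot_iff]
  refine Ideal.map_le_iff_le_comap.mpr fun f hf => ?_
  have h1 := h hf
  rw [LiftProblem.Pt.ker, RingHom.mem_ker] at h1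
  rw [Ideal.mem_comap, h1]
  exact Ideal.zero_mem _

/-- A1.7 (uses T7: the maximal ideal of an Artinian test algebra is nilpotent). -/
theorem LiftProblem.Pt.exists_pow_le_ker (hP : P.Axioms) (p : P.Pt) :
    ∃ n : ℕ, P.m0 ^ (n + 1) ≤ p.ker := by
  obtain ⟨n, hn⟩ := IsArtinianTestAlgebra.exists_pow_maximalIdeal_eq_bot p.art
  refine ⟨n, LiftProblem.Pt.pow_le_ker hP p (n + 1) ?_⟩
  rw [pow_succ, hn, Ideal.bot_mul]

/-- A1.8 The base point `(k, rbar)` (uses `hP.base` and T1). -/
theorem LiftProblem.exists_basePt (hP : P.Axioms) : ∃ p : P.Pt, p.IsGen ∧ p.ker = P.m0 :=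
  ⟨{ A := ResidueField 𝒪
     art := isArtinianTestAlgebra_residueField
     r := P.rbar
     hr := hP.base }, ptBasic_aeval_rbar_surjective P, rfl⟩

end Fermat.Agent.S53
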