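/-
S53 Part A (abstract pro-representability), work package A2 (generated points).
STATEMENTS ARE FROZEN (squad interface): do not change them.  Replace each `sorry` by a proof.
Helper lemmas: add them in THIS file, inside `namespace Fermat.Agent.S53`, names prefixed `ptGen_`.
You may import and use any other S53 file (statements there may still be `sorry`), as long as
no import cycle arises (see the imports of `Fermat/Agent/S53/Abstract.lean` for the order).
Notation: Pol = MvPolynomial X 𝒪, k = ResidueField 𝒪, p.ev : Pol → p.A, p.ker = ker p.ev,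
m0 = ker (Pol → k).  See PtDefs.lean.
Proof: take `A' = p.ev.range` (a `Subalgebra 𝒪 p.A`, finite by T8), show it is local
(a unit of `p.A` lying in a finite subring has its inverse in the subring), an Artinian
test algebra, and descend the lift with `hP.descent` along the inclusion.
-/
import Fermat.Agent.S53.Abstract.PtDefs
import Fermat.Agent.S53.ArtTest

set_option autoImplicit false

namespace Fermat.Agent.S53

open IsLocalRing GaloisRep

variable {𝒪 : Type} [CommRing 𝒪] [IsDomain 𝒪] [IsDiscreteValuationRing 𝒪]
  [Finite (ResidueField 𝒪)] {X : Type} {P : LiftProblem 𝒪 X}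

/-- In a finite commutative ring, a unit lying in a subalgebra is a unit of the subalgebra. -/
theorem ptGen_isUnit_of_isUnit_val {R A : Type} [CommRing R] [CommRing A] [Algebra R A]
    [Finite A] (S : Subalgebra R A) (a : S) (ha : IsUnit (a : A)) : IsUnit a := by
  obtain ⟨u, hu⟩ := ha
  have hfin : IsOfFinOrder u := isOfFinOrder_of_finite u
  obtain ⟨n, hn, hun⟩ := hfin.exists_pow_eq_one
  have h1 : ((a : A)) ^ n = 1 := by
    rw [← hu, ← Units.val_pow_eq_pow_val, hun, Units.val_one]
  have h2 : a ^ n = 1 := by
    apply Subtype.ext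
    simpa using h1
  exact IsUnit.of_pow_eq_one h2 (Nat.pos_iff_ne_zero.mp hn)

/-- A subalgebra of a finite local ring is local. -/
theorem ptGen_isLocalRing_subalgebra {R A : Type} [CommRing R] [CommRing A] [Algebra R A]
    [IsLocalRing A] [Finite A] (S : Subalgebra R A) : IsLocalRing S := by
  have : Nontrivial S := inferInstance
  refine IsLocalRing.of_isUnit_or_isUnit_one_sub_self fun a => ?_
  rcases IsLocalRing.isUnit_or_isUnit_one_sub_self (a : A) with h | h
  · exact Or.inl (ptGen_isUnit_of_isUnit_val S a h)
  · exact Or.inr (ptGen_isUnit_of_isUnit_val S (1 - a) (by simpa using h))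

/-- A2. Every point can be replaced by a generated point with the same kernel. -/
theorem LiftProblem.Pt.exists_isGen (hP : P.Axioms) (p : P.Pt) :
    ∃ p' : P.Pt, p'.IsGen ∧ p'.ker = p.ker := by
  classical
  have hfinA : Finite p.A := IsArtinianTestAlgebra.finite p.art
  let S : Subalgebra 𝒪 p.A := p.ev.range
  have hloc : IsLocalRing S := ptGen_isLocalRing_subalgebra S
  have hfinS : Finite S := inferInstance
  -- units of `S` are exactly the elements that are units in `p.A`
  have hunit : ∀ a : S, IsUnit a ↔ IsUnit (a : p.A) := fun a =>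
    ⟨fun h => h.map S.val, ptGen_isUnit_of_isUnit_val S a⟩
  have hartS : IsArtinianTestAlgebra 𝒪 S := by
    refine ⟨⟨fun a ha => ?_⟩, ?_, inferInstance⟩
    · have := p.art.isLocalHom
      have h1 : IsUnit ((algebraMap 𝒪 S a : S) : p.A) := (hunit _).1 ha
      exact isUnit_of_map_unit (algebraMap 𝒪 p.A) a h1
    · intro x
      obtain ⟨a, rfl⟩ := IsLocalRing.residue_surjective x
      obtain ⟨c, hc⟩ := p.art.residue_surjective (IsLocalRing.residue p.A (a : p.A))
      refine ⟨c, ?_⟩
      have hc' : IsLocalRing.residue p.A (algebraMap 𝒪 p.A c) =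
          IsLocalRing.residue p.A (a : p.A) := hc
      have h2 : (algebraMap 𝒪 p.A c - (a : p.A)) ∈ maximalIdeal p.A := by
        rw [← IsLocalRing.residue_eq_zero_iff, map_sub, hc', sub_self]
      have h3 : (algebraMap 𝒪 S c - a) ∈ maximalIdeal S := by
        rw [IsLocalRing.mem_maximalIdeal, mem_nonunits_iff, hunit]
        rw [IsLocalRing.mem_maximalIdeal, mem_nonunits_iff] at h2
        exact h2
      show IsLocalRing.residue S (algebraMap 𝒪 S c) = IsLocalRing.residue S a
      rw [← sub_eq_zero, ← map_sub, IsLocalRing.residue_eq_zero_iff]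
      exact h3
  let r' : X → S := fun x => ⟨p.r x, ⟨MvPolynomial.X x, by
    show p.ev (MvPolynomial.X x) = p.r x
    exact MvPolynomial.aeval_X p.r x⟩⟩
  have hr' : P.F r' :=
    hP.descent hartS p.art S.val Subtype.val_injective (r := r') p.hr
  let p' : P.Pt := { A := S, art := hartS, r := r', hr := hr' }
  have hcomp : ∀ f : MvPolynomial X 𝒪, ((p'.ev f : S) : p.A) = p.ev f := by
    intro f
    have h := MvPolynomial.comp_aeval_apply (R := 𝒪) (σ := X) (f := r') S.val f
    exact h
  refine ⟨p', ?_, ?_⟩
  · rintro ⟨y, f, rfl⟩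
    exact ⟨f, Subtype.ext (hcomp f)⟩
  · ext f
    show p'.ev f = 0 ↔ p.ev f = 0
    rw [← hcomp f]
    exact ⟨fun h => by rw [h]; rfl, fun h => Subtype.ext h⟩

end Fermat.Agent.S53
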