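/-
S53 Part A (abstract pro-representability), work package A3 (intersections of kernels).
STATEMENTS ARE FROZEN (squad interface): do not change them.  Replace each `sorry` by a proof.
Helper lemmas: add them in THIS file, inside `namespace Fermat.Agent.S53`, names prefixed `ptInf_`.
You may import and use any other S53 file (statements there may still be `sorry`), as long as
no import cycle arises (see the imports of `Fermat/Agent/S53/Abstract.lean` for the order).
Notation: Pol = MvPolynomial X 𝒪, k = ResidueField 𝒪, p.ev : Pol → p.A, p.ker = ker p.ev,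
m0 = ker (Pol → k).  See PtDefs.lean.
Proof: with `κ_A, κ_B` from `IsArtinianTestAlgebra.exists_toRes` (Res.lean), let
`Q = AlgHom.equalizer (κ_A.comp (AlgHom.fst ..)) (κ_B.comp (AlgHom.snd ..))` (fibre product
over `k`); it is a local Artinian test algebra; `x ↦ (p.r x, q.r x)` lands in `Q` by
`hP.residue`; apply `hP.fibre` with `C = ResidueField 𝒪` (T1).  Kernel of the evaluation
is `p.ker ⊓ q.ker`.
-/
import Fermat.Agent.S53.Abstract.PtDefs
import Fermat.Agent.S53.ArtTest
import Fermat.Agent.S53.Abstract.Res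

set_option autoImplicit false

namespace Fermat.Agent.S53

open IsLocalRing GaloisRep

variable {𝒪 : Type} [CommRing 𝒪] [IsDomain 𝒪] [IsDiscreteValuationRing 𝒪]
  [Finite (ResidueField 𝒪)] {X : Type} {P : LiftProblem 𝒪 X}

/-- In a finite ring, an element of a subalgebra which is a unit in the big ring is a unit in
the subalgebra. -/
theorem ptInf_isUnit_of_finite_subalgebra {Z : Type} [CommRing Z] [Algebra 𝒪 Z] [Finite Z]
    (D : Subalgebra 𝒪 Z) (d : D) (hd : IsUnit (d : Z)) : IsUnit d := by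
  obtain ⟨n, hn, h1⟩ := (isOfFinOrder_of_finite hd.unit).exists_pow_eq_one
  have h2 : (d : Z) ^ n = 1 := by
    have := congrArg Units.val h1
    simpa using this
  obtain ⟨m, rfl⟩ : ∃ m, n = m + 1 := ⟨n - 1, by omega⟩
  refine IsUnit.of_mul_eq_one (d ^ m) ?_
  apply Subtype.ext
  push_cast
  rw [← h2, pow_succ']

/-- residue surjectivity, elementwise -/
theorem ptInf_resSurj {A : Type} [CommRing A] [IsLocalRing A] [Algebra 𝒪 A]
    (hA : IsArtinianTestAlgebra 𝒪 A) (a : A) :
    ∃ c : 𝒪, a - algebraMap 𝒪 A c ∈ maximalIdeal A := by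
  obtain ⟨c, hc⟩ := hA.residue_surjective (residue A a)
  refine ⟨c, ?_⟩
  rw [← Ideal.Quotient.eq]
  exact hc.symm

/-- A finite algebra with a local homomorphism to a test algebra is a test algebra. -/
theorem ptInf_test_of_localHom {A Q : Type} [CommRing A] [IsLocalRing A] [Algebra 𝒪 A]
    [CommRing Q] [IsLocalRing Q] [Algebra 𝒪 Q] [Finite Q]
    (hA : IsArtinianTestAlgebra 𝒪 A) (φ : Q →ₐ[𝒪] A) (hφ : IsLocalHom (φ : Q →+* A)) :
    IsArtinianTestAlgebra 𝒪 Q := by
  haveI := hA.isLocalHom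
  refine ⟨⟨fun c hc => ?_⟩, ?_, inferInstance⟩
  · have h := (φ : Q →+* A).isUnit_map hc
    rw [RingHom.coe_coe, AlgHom.commutes] at h
    exact isUnit_of_map_unit (algebraMap 𝒪 A) c h
  · intro y
    obtain ⟨p, rfl⟩ := residue_surjective y
    obtain ⟨c, hc⟩ := ptInf_resSurj hA (φ p)
    refine ⟨c, ?_⟩
    symm
    refine Ideal.Quotient.eq.mpr ?_
    rw [mem_maximalIdeal, mem_nonunits_iff] at hc ⊢
    intro hu
    apply hc
    have h := (φ : Q →+* A).isUnit_map hu
    rwa [RingHom.coe_coe, map_sub, AlgHom.commutes] at h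

/-- A3.1 -/
theorem LiftProblem.Pt.exists_inf (hP : P.Axioms) (p q : P.Pt) :
    ∃ s : P.Pt, s.ker = p.ker ⊓ q.ker := by
  haveI : Finite p.A := Fermat.Agent.S53.IsArtinianTestAlgebra.finite p.art
  haveI : Finite q.A := Fermat.Agent.S53.IsArtinianTestAlgebra.finite q.art
  obtain ⟨κA, -, hκA⟩ := Fermat.Agent.S53.IsArtinianTestAlgebra.exists_toRes p.art
  obtain ⟨κB, -, hκB⟩ := Fermat.Agent.S53.IsArtinianTestAlgebra.exists_toRes q.art
  let Q : Subalgebra 𝒪 (p.A × q.A) :=
    AlgHom.equalizer (κA.comp (AlgHom.fst 𝒪 p.A q.A)) (κB.comp (AlgHom.snd 𝒪 p.A q.A))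
  have hmem : ∀ z : p.A × q.A, z ∈ Q ↔ κA z.1 = κB z.2 := fun z => Iff.rfl
  let pA : Q →ₐ[𝒪] p.A := (AlgHom.fst 𝒪 p.A q.A).comp Q.val
  let pB : Q →ₐ[𝒪] q.A := (AlgHom.snd 𝒪 p.A q.A).comp Q.val
  have hpA : IsLocalHom (pA : Q →+* p.A) := by
    refine ⟨fun z hz => ?_⟩
    apply ptInf_isUnit_of_finite_subalgebra
    have h1 : IsUnit (z : p.A × q.A).1 := hz
    have h2 : κA (z : p.A × q.A).1 = κB (z : p.A × q.A).2 := (hmem _).mp z.2
    have h3 : IsUnit (z : p.A × q.A).2 := by
      by_contra h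
      have h4 : (z : p.A × q.A).2 ∈ maximalIdeal q.A := h
      rw [← hκB, ← h2, hκA] at h4
      exact h4 h1
    exact Prod.isUnit_iff.mpr ⟨h1, h3⟩
  haveI : IsLocalRing Q := RingHom.domain_isLocalRing (pA : Q →+* p.A)
  have hQ : IsArtinianTestAlgebra 𝒪 Q := ptInf_test_of_localHom p.art pA hpA
  have hres : ∀ x : X, κA (p.r x) = κB (q.r x) := by
    intro x
    obtain ⟨a, ha⟩ := residue_surjective (P.rbar x)
    have h1 := hP.residue p.art p.hr x a ha
    have h2 := hP.residue q.art q.hr x a ha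
    rw [← hκA, map_sub, sub_eq_zero, AlgHom.commutes] at h1
    rw [← hκB, map_sub, sub_eq_zero, AlgHom.commutes] at h2
    rw [h1, h2]
  let r : X → Q := fun x => ⟨(p.r x, q.r x), (hmem _).mpr (hres x)⟩
  have hr : P.F r := by
    refine hP.fibre p.art q.art isArtinianTestAlgebra_residueField hQ κA κB pA pB ?_ ?_ ?_
      p.hr q.hr
    · exact AlgHom.ext fun z => (hmem _).mp z.2
    · intro z w hzw
      have h1 : (z : p.A × q.A).1 = (w : p.A × q.A).1 := congrArg Prod.fst hzw
      have h2 : (z : p.A × q.A).2 = (w : p.A × q.A).2 := congrArg Prod.snd hzw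
      exact Subtype.ext (Prod.ext h1 h2)
    · intro a b hab
      exact ⟨⟨(a, b), (hmem _).mpr hab⟩, rfl, rfl⟩
  refine ⟨{ A := Q, art := hQ, r := r, hr := hr }, ?_⟩
  ext f
  have e1 : pA (MvPolynomial.aeval r f) = MvPolynomial.aeval p.r f := by
    rw [← AlgHom.comp_apply, MvPolynomial.comp_aeval]
    rfl
  have e2 : pB (MvPolynomial.aeval r f) = MvPolynomial.aeval q.r f := by
    rw [← AlgHom.comp_apply, MvPolynomial.comp_aeval]
    rfl
  simp only [LiftProblem.Pt.ker, LiftProblem.Pt.ev, Ideal.mem_inf, RingHom.mem_ker]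
  constructor
  · intro h
    constructor
    · rw [← e1]
      show pA (MvPolynomial.aeval r f) = 0
      rw [show (MvPolynomial.aeval r f : Q) = 0 from h, map_zero]
    · rw [← e2]
      show pB (MvPolynomial.aeval r f) = 0
      rw [show (MvPolynomial.aeval r f : Q) = 0 from h, map_zero]
  · rintro ⟨h1, h2⟩
    apply Subtype.ext
    apply Prod.ext
    · exact e1.trans h1
    · exact e2.trans h2

/-- A3.2 Finite intersections (induction from A3.1). -/
theorem LiftProblem.Pt.exists_iInf (hP : P.Axioms) {ι : Type*} [Finite ι] (p0 : P.Pt)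
    (f : ι → P.Pt) : ∃ s : P.Pt, s.ker = p0.ker ⊓ ⨅ i, (f i).ker := by
  revert f
  refine Finite.induction_empty_option
    (P := fun ι => ∀ f : ι → P.Pt, ∃ s : P.Pt, s.ker = p0.ker ⊓ ⨅ i, (f i).ker) ?_ ?_ ?_ ι
  · intro α β e h f
    obtain ⟨s, hs⟩ := h (fun a => f (e a))
    refine ⟨s, ?_⟩
    rw [hs]
    congr 1
    exact e.iInf_comp (g := fun b => (f b).ker)
  · intro f
    exact ⟨p0, by simp⟩
  · intro α _ ih f
    obtain ⟨s', hs'⟩ := ih (fun a => f (some a))
    obtain ⟨s, hs⟩ := LiftProblem.Pt.exists_inf hP s' (f none)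
    refine ⟨s, ?_⟩
    rw [hs, hs', iInf_option, inf_assoc, inf_comm (⨅ a, (f (some a)).ker)]

end Fermat.Agent.S53
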