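/-
S53 Part A (abstract pro-representability), work package A4 (quotient points).
STATEMENTS ARE FROZEN (squad interface): do not change them.  Replace each `sorry` by a proof.
Helper lemmas: add them in THIS file, inside `namespace Fermat.Agent.S53`, names prefixed `ptQuot_`.
You may import and use any other S53 file (statements there may still be `sorry`), as long as
no import cycle arises (see the imports of `Fermat/Agent/S53/Abstract.lean` for the order).
Notation: Pol = MvPolynomial X 𝒪, k = ResidueField 𝒪, p.ev : Pol → p.A, p.ker = ker p.ev,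
m0 = ker (Pol → k).  See PtDefs.lean.
Proof: `B = p.A ⧸ I.map p.ev`; `I.map p.ev ≤ maximalIdeal p.A` by A1.2, so `B` is a local
Artinian test algebra; push the lift with `hP.push` along `Ideal.Quotient.mkₐ`; kernel via
`Ideal.comap_map_of_surjective`.
-/
import Fermat.Agent.S53.Abstract.PtDefs
import Fermat.Agent.S53.ArtTest
import Fermat.Agent.S53.Abstract.PtBasic

set_option autoImplicit false

namespace Fermat.Agent.S53

open IsLocalRing GaloisRep

variable {𝒪 : Type} [CommRing 𝒪] [IsDomain 𝒪] [IsDiscreteValuationRing 𝒪]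
  [Finite (ResidueField 𝒪)] {X : Type} {P : LiftProblem 𝒪 X}

/-- The quotient of an Artinian test algebra by an ideal contained in the maximal ideal is an
Artinian test algebra (for any local-ring structure on the quotient). -/
theorem ptQuot_isArtinianTestAlgebra {A : Type} [CommRing A] [IsLocalRing A] [Algebra 𝒪 A]
    (hA : IsArtinianTestAlgebra 𝒪 A) (J : Ideal A) [IsLocalRing (A ⧸ J)] :
    IsArtinianTestAlgebra 𝒪 (A ⧸ J) := by
  have hloc : IsLocalHom (Ideal.Quotient.mk J) :=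
    IsLocalHom.of_surjective (Ideal.Quotient.mk J) Ideal.Quotient.mk_surjective
  refine ⟨?_, ?_, ?_⟩
  · have h1 : IsLocalHom (algebraMap 𝒪 A) := hA.isLocalHom
    have h2 : algebraMap 𝒪 (A ⧸ J) = (Ideal.Quotient.mk J).comp (algebraMap 𝒪 A) := rfl
    rw [h2]
    exact RingHom.isLocalHom_comp _ _
  · intro y
    obtain ⟨b, rfl⟩ := IsLocalRing.residue_surjective y
    obtain ⟨a, rfl⟩ := Ideal.Quotient.mk_surjective b
    obtain ⟨c, hc⟩ := hA.residue_surjective (IsLocalRing.residue A a)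
    refine ⟨c, ?_⟩
    have hc' : algebraMap 𝒪 A c - a ∈ maximalIdeal A := by
      have : IsLocalRing.residue A (algebraMap 𝒪 A c - a) = 0 := by
        rw [map_sub]
        have : IsLocalRing.residue A (algebraMap 𝒪 A c) = IsLocalRing.residue A a := hc
        rw [this, sub_self]
      exact (IsLocalRing.residue_eq_zero_iff _).mp this
    have h3 : Ideal.Quotient.mk J (algebraMap 𝒪 A c - a) ∈ maximalIdeal (A ⧸ J) := by
      rw [IsLocalRing.mem_maximalIdeal] at hc' ⊢
      intro hu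
      exact hc' (hloc.map_nonunit _ hu)
    change IsLocalRing.residue (A ⧸ J) (Ideal.Quotient.mk J (algebraMap 𝒪 A c)) =
      IsLocalRing.residue (A ⧸ J) (Ideal.Quotient.mk J a)
    rw [← sub_eq_zero, ← map_sub, ← map_sub]
    exact (IsLocalRing.residue_eq_zero_iff _).mpr h3
  · have : IsArtinianRing A := hA.isArtinian
    exact (Ideal.Quotient.mk_surjective (I := J)).isArtinianRing

/-- A4. For a generated point `p` and an ideal `I ≤ m0` there is a generated point with
kernel `p.ker ⊔ I`. -/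
theorem LiftProblem.Pt.exists_sup (hP : P.Axioms) (p : P.Pt) (hg : p.IsGen)
    (I : Ideal (MvPolynomial X 𝒪)) (hI : I ≤ P.m0) :
    ∃ s : P.Pt, s.IsGen ∧ s.ker = p.ker ⊔ I := by
  classical
  have hJle : I.map (p.ev : MvPolynomial X 𝒪 →+* p.A) ≤ maximalIdeal p.A := by
    rw [Ideal.map_le_iff_le_comap]
    have := LiftProblem.Pt.comap_maximalIdeal hP p
    rw [← this] at hI
    exact hI
  have hJne : I.map (p.ev : MvPolynomial X 𝒪 →+* p.A) ≠ ⊤ := fun h =>
    (IsLocalRing.maximalIdeal.isMaximal p.A).ne_top (top_le_iff.mp (h ▸ hJle))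
  have : Nontrivial (p.A ⧸ I.map (p.ev : MvPolynomial X 𝒪 →+* p.A)) :=
    Ideal.Quotient.nontrivial_iff.mpr hJne
  have : IsLocalRing (p.A ⧸ I.map (p.ev : MvPolynomial X 𝒪 →+* p.A)) :=
    IsLocalRing.of_surjective' (Ideal.Quotient.mk _) Ideal.Quotient.mk_surjective
  have hart : IsArtinianTestAlgebra 𝒪 (p.A ⧸ I.map (p.ev : MvPolynomial X 𝒪 →+* p.A)) :=
    ptQuot_isArtinianTestAlgebra p.art _
  have hF : P.F (fun x => Ideal.Quotient.mkₐ 𝒪 (I.map (p.ev : MvPolynomial X 𝒪 →+* p.A)) (p.r x)) :=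
    hP.push p.art hart (Ideal.Quotient.mkₐ 𝒪 _) p.hr
  have hev : (MvPolynomial.aeval (fun x =>
      Ideal.Quotient.mkₐ 𝒪 (I.map (p.ev : MvPolynomial X 𝒪 →+* p.A)) (p.r x)) :
        MvPolynomial X 𝒪 →ₐ[𝒪] _) =
      (Ideal.Quotient.mkₐ 𝒪 (I.map (p.ev : MvPolynomial X 𝒪 →+* p.A))).comp p.ev := by
    apply MvPolynomial.algHom_ext
    intro x
    rw [AlgHom.comp_apply, MvPolynomial.aeval_X]
    have h1 : p.ev (MvPolynomial.X x) = p.r x := by
      unfold LiftProblem.Pt.ev
      exact MvPolynomial.aeval_X _ _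
    rw [h1]
  refine ⟨⟨p.A ⧸ I.map (p.ev : MvPolynomial X 𝒪 →+* p.A), hart, _, hF⟩, ?_, ?_⟩
  · intro y
    obtain ⟨a, rfl⟩ := Ideal.Quotient.mk_surjective y
    obtain ⟨f, rfl⟩ := hg a
    refine ⟨f, ?_⟩
    change (MvPolynomial.aeval _ : MvPolynomial X 𝒪 →ₐ[𝒪] _) f = _
    rw [hev]
    rfl
  · ext f
    change (MvPolynomial.aeval _ : MvPolynomial X 𝒪 →ₐ[𝒪] _) f = 0 ↔ _
    rw [hev]
    change Ideal.Quotient.mk _ (p.ev f) = 0 ↔ _
    rw [Ideal.Quotient.eq_zero_iff_mem]
    have hcm : (I.map (p.ev : MvPolynomial X 𝒪 →+* p.A)).comap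
        (p.ev : MvPolynomial X 𝒪 →+* p.A) = I ⊔ p.ker :=
      Ideal.comap_map_of_surjective (p.ev : MvPolynomial X 𝒪 →+* p.A) hg I
    have hmem : p.ev f ∈ I.map (p.ev : MvPolynomial X 𝒪 →+* p.A) ↔
        f ∈ (I.map (p.ev : MvPolynomial X 𝒪 →+* p.A)).comap
          (p.ev : MvPolynomial X 𝒪 →+* p.A) := Iff.rfl
    rw [hmem, hcm, sup_comm]

end Fermat.Agent.S53
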