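/-
S53 Part A (abstract pro-representability), work package A0 (residue map).
STATEMENTS ARE FROZEN (squad interface): do not change them.  Replace each `sorry` by a proof.
Helper lemmas: add them in THIS file, inside `namespace Fermat.Agent.S53`, names prefixed `res_`.
You may import and use any other S53 file (statements there may still be `sorry`), as long as
no import cycle arises (see the imports of `Fermat/Agent/S53/Abstract.lean` for the order).
Notation: Pol = MvPolynomial X 𝒪, k = ResidueField 𝒪, p.ev : Pol → p.A, p.ker = ker p.ev,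
m0 = ker (Pol → k).  See PtDefs.lean.
-/
import Fermat.Agent.S53.Abstract.PtDefs
import Fermat.Agent.S53.ArtTest

set_option autoImplicit false

namespace Fermat.Agent.S53

open IsLocalRing GaloisRep

variable {𝒪 : Type} [CommRing 𝒪] [IsDomain 𝒪] [IsDiscreteValuationRing 𝒪]
  [Finite (ResidueField 𝒪)] {X : Type} {P : LiftProblem 𝒪 X}

/-- A0. For an Artinian test algebra `A` there is a surjective `𝒪`-algebra map `A → k` with
kernel the maximal ideal (invert the bijection `k → ResidueField A` and compose with
`residue A`). -/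
theorem IsArtinianTestAlgebra.exists_toRes {A : Type} [CommRing A] [IsLocalRing A] [Algebra 𝒪 A]
    (hA : IsArtinianTestAlgebra 𝒪 A) :
    ∃ κ : A →ₐ[𝒪] ResidueField 𝒪, Function.Surjective κ ∧
      ∀ a : A, κ a = 0 ↔ a ∈ maximalIdeal A := by
  haveI := hA.isLocalHom
  have hbij : Function.Bijective (ResidueField.map (algebraMap 𝒪 A)) := by
    refine ⟨(ResidueField.map (algebraMap 𝒪 A)).injective, fun y => ?_⟩
    obtain ⟨a, rfl⟩ := IsLocalRing.residue_surjective y
    obtain ⟨c, hc⟩ := hA.residue_surjective (residue A a)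
    exact ⟨residue 𝒪 c, by simpa using hc⟩
  let e : ResidueField 𝒪 ≃+* ResidueField A := RingEquiv.ofBijective _ hbij
  have he : ∀ c : 𝒪, e (residue 𝒪 c) = residue A (algebraMap 𝒪 A c) := fun c => by
    simp [e]
  let κ0 : A →+* ResidueField 𝒪 :=
    (e.symm : ResidueField A →+* ResidueField 𝒪).comp (residue A)
  have hκ0 : ∀ a, κ0 a = e.symm (residue A a) := fun a => rfl
  refine ⟨{ κ0 with commutes' := fun c => ?_ }, ?_, fun a => ?_⟩
  · change κ0 (algebraMap 𝒪 A c) = residue 𝒪 c
    rw [hκ0, ← he, RingEquiv.symm_apply_apply]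
  · intro y
    obtain ⟨a, ha⟩ := IsLocalRing.residue_surjective (e y)
    refine ⟨a, ?_⟩
    change κ0 a = y
    rw [hκ0, ha, RingEquiv.symm_apply_apply]
  · change κ0 a = 0 ↔ _
    rw [hκ0, map_eq_zero_iff _ e.symm.injective, residue_eq_zero_iff]

end Fermat.Agent.S53
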