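/-
S53 Part A (abstract pro-representability), work package A5 (dual numbers separate points of square-zero algebras).
STATEMENTS ARE FROZEN (squad interface): do not change them.  Replace each `sorry` by a proof.
Helper lemmas: add them in THIS file, inside `namespace Fermat.Agent.S53`, names prefixed `sep_`.
You may import and use any other S53 file (statements there may still be `sorry`), as long as
no import cycle arises (see the imports of `Fermat/Agent/S53/Abstract.lean` for the order).
Notation: Pol = MvPolynomial X 𝒪, k = ResidueField 𝒪, p.ev : Pol → p.A, p.ker = ker p.ev,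
m0 = ker (Pol → k).  See PtDefs.lean.
Proof: `s : k →+* A` := `Ideal.Quotient.lift (maximalIdeal 𝒪) (algebraMap 𝒪 A) hϖ`
(recall `ResidueField 𝒪 = 𝒪 ⧸ maximalIdeal 𝒪`), `κ : A →ₐ[𝒪] k` from Res.lean,
`v a := a - s (κ a) ∈ maximalIdeal A`; view `A` as a `k`-vector space via `s`; for a
`k`-linear `λ : A → k`, `u a := inl (κ a) + inr (λ (v a))` is an `𝒪`-algebra map
(multiplicativity uses `m² = 0`); choose `λ` with `λ (v a) ≠ 0` if `κ a = 0`
(`Module.forall_dual_apply_eq_zero_iff`).
-/
import Fermat.Agent.S53.Abstract.PtDefs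
import Fermat.Agent.S53.ArtTest
import Fermat.Agent.S53.Abstract.Res

set_option autoImplicit false

namespace Fermat.Agent.S53

open IsLocalRing GaloisRep

variable {𝒪 : Type} [CommRing 𝒪] [IsDomain 𝒪] [IsDiscreteValuationRing 𝒪]
  [Finite (ResidueField 𝒪)] {X : Type} {P : LiftProblem 𝒪 X}

/-- A5. -/
theorem exists_algHom_dualNumber_apply_ne_zero {A : Type} [CommRing A] [IsLocalRing A]
    [Algebra 𝒪 A] (hA : IsArtinianTestAlgebra 𝒪 A) (h2 : maximalIdeal A ^ 2 = ⊥)
    (hϖ : ∀ a ∈ maximalIdeal 𝒪, algebraMap 𝒪 A a = 0) (a : A) (ha : a ≠ 0) :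
    letI := dualNumberAlgebra 𝒪
    ∃ u : A →ₐ[𝒪] DualNumber (ResidueField 𝒪), u a ≠ 0 := by
  let _ := dualNumberAlgebra 𝒪
  obtain ⟨κ, -, hκ⟩ := IsArtinianTestAlgebra.exists_toRes hA
  let s : ResidueField 𝒪 →+* A := Ideal.Quotient.lift (maximalIdeal 𝒪) (algebraMap 𝒪 A) hϖ
  have hs : ∀ c : 𝒪, s (residue 𝒪 c) = algebraMap 𝒪 A c := fun c => rfl
  have hκs : ∀ c : ResidueField 𝒪, κ (s c) = c := by
    intro c
    obtain ⟨c, rfl⟩ := IsLocalRing.residue_surjective c
    rw [hs, AlgHom.commutes]
    rfl
  let _ : Module (ResidueField 𝒪) A := Module.compHom A s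
  have hsmul : ∀ (c : ResidueField 𝒪) (z : A), c • z = s c * z := fun c z => rfl
  obtain ⟨lam, hlam⟩ : ∃ lam : Module.Dual (ResidueField 𝒪) A, lam a ≠ 0 := by
    by_contra h
    exact ha ((Module.forall_dual_apply_eq_zero_iff (ResidueField 𝒪) a).mp
      fun f => not_not.mp fun hf => h ⟨f, hf⟩)
  have hv : ∀ x : A, x - s (κ x) ∈ maximalIdeal A := by
    intro x
    rw [← hκ, map_sub, hκs, sub_self]
  have hmul0 : ∀ x y : A, x ∈ maximalIdeal A → y ∈ maximalIdeal A → x * y = 0 := by
    intro x y hx hy
    have h : x * y ∈ maximalIdeal A ^ 2 := by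
      rw [pow_two]
      exact Ideal.mul_mem_mul hx hy
    rw [h2] at h
    exact (Submodule.mem_bot A).mp h
  have hlin : ∀ x y : A, lam (x * y - s (κ (x * y))) =
      κ x * lam (y - s (κ y)) + κ y * lam (x - s (κ x)) := by
    intro x y
    have e : x * y - s (κ (x * y)) =
        κ x • (y - s (κ y)) + κ y • (x - s (κ x)) := by
      rw [hsmul, hsmul, map_mul, map_mul]
      have h0 := hmul0 _ _ (hv x) (hv y)
      linear_combination h0
    rw [e, map_add, map_smul, map_smul, smul_eq_mul, smul_eq_mul]
  let u : A →ₐ[𝒪] DualNumber (ResidueField 𝒪) :=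
    { toFun := fun x => TrivSqZeroExt.inl (κ x) + TrivSqZeroExt.inr (lam (x - s (κ x)))
      map_one' := by
        rw [map_one, map_one, sub_self, map_zero, TrivSqZeroExt.inr_zero, add_zero]
        rfl
      map_mul' := by
        intro x y
        rw [hlin]
        ext
        · simp
        · simp [mul_comm]
      map_zero' := by
        simp
      map_add' := by
        intro x y
        ext
        · simp
        · simp [add_sub_add_comm]
      commutes' := by
        intro c
        have h1 : κ (algebraMap 𝒪 A c) = residue 𝒪 c := by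
          rw [AlgHom.commutes]; rfl
        have h2 : (algebraMap 𝒪 (DualNumber (ResidueField 𝒪))) c
            = TrivSqZeroExt.inl (residue 𝒪 c) := rfl
        simp only [h1, hs, sub_self, map_zero, TrivSqZeroExt.inr_zero, add_zero, h2] }
  refine ⟨u, ?_⟩
  intro h0
  have hfst : κ a = 0 := by
    have := congrArg TrivSqZeroExt.fst h0
    simpa [u] using this
  have hsnd : lam (a - s (κ a)) = 0 := by
    have := congrArg TrivSqZeroExt.snd h0
    simpa [u] using this
  rw [hfst, map_zero, sub_zero] at hsnd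
  exact hlam hsnd

end Fermat.Agent.S53
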