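/-
S53 Part A (abstract pro-representability), work package A6 (uniform generators, from tangent finiteness).
PROVED (helper4673); the statement is the frozen squad interface statement, unchanged.
Helper lemmas: add them in THIS file, inside `namespace Fermat.Agent.S53`, names prefixed `gens_`.
You may import and use any other S53 file (statements there may still be `sorry`), as long as
no import cycle arises (see the imports of `Fermat/Agent/S53/Abstract.lean` for the order).
Notation: Pol = MvPolynomial X 𝒪, k = ResidueField 𝒪, p.ev : Pol → p.A, p.ker = ker p.ev,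
m0 = ker (Pol → k).  See PtDefs.lean.
Proof: each `ρ : {r // P.F r}` over the dual numbers is a point (algebra instance
`dualNumberAlgebra 𝒪`, T9).  By A3.2 + A2 + A1.8 there is a generated point `pT` with
`pT.ker = m0 ⊓ ⨅ ρ, (pt ρ).ker =: K`; `pT.A` is finite (T8).  Let `t` enumerate lifts in `m0`
of all elements of `maximalIdeal pT.A`, together with `C ϖ` (`ϖ` a uniformizer).
For a generated `p`: by A4 with `I = m0^2 ⊔ span {C ϖ}` get `s` with `m_s^2 = 0`, `ϖ = 0`;
A5 + `hP.push` give `K ≤ s.ker = p.ker ⊔ m0^2 ⊔ span {C ϖ}`.  Hence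
`m_A ≤ span (p.ev ∘ t) + m_A^2`, and Nakayama gives equality.
-/
import Fermat.Agent.S53.Abstract.PtDefs
import Fermat.Agent.S53.ArtTest
import Fermat.Agent.S53.Abstract.PtBasic
import Fermat.Agent.S53.Abstract.PtGen
import Fermat.Agent.S53.Abstract.PtInf
import Fermat.Agent.S53.Abstract.PtQuot
import Fermat.Agent.S53.Abstract.Sep

set_option autoImplicit false

namespace Fermat.Agent.S53

open IsLocalRing GaloisRep

variable {𝒪 : Type} [CommRing 𝒪] [IsDomain 𝒪] [IsDiscreteValuationRing 𝒪]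
  [Finite (ResidueField 𝒪)] {X : Type} {P : LiftProblem 𝒪 X}

/-- A6. There are finitely many polynomials in `m0` whose values generate the maximal ideal
of every generated point. -/
theorem LiftProblem.exists_uniform_generators (hP : P.Axioms) :
    ∃ (N : ℕ) (t : Fin N → MvPolynomial X 𝒪), (∀ i, t i ∈ P.m0) ∧
      ∀ p : P.Pt, p.IsGen →
        Ideal.span (Set.range fun i => p.ev (t i)) = maximalIdeal p.A := by
  classical
  let _ := dualNumberAlgebra 𝒪
  -- the tangent points
  have hfin : Finite {r : X → DualNumber (ResidueField 𝒪) // P.F r} := hP.tangent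
  let tp : {r : X → DualNumber (ResidueField 𝒪) // P.F r} → P.Pt := fun ρ =>
    { A := DualNumber (ResidueField 𝒪)
      art := isArtinianTestAlgebra_dualNumber
      r := ρ.1
      hr := ρ.2 }
  obtain ⟨p0, -, hp0⟩ := LiftProblem.exists_basePt hP
  obtain ⟨s0, hs0⟩ := LiftProblem.Pt.exists_iInf hP p0 tp
  obtain ⟨pT, hpTg, hpT⟩ := s0.exists_isGen hP
  have hfinT : Finite pT.A := IsArtinianTestAlgebra.finite pT.art
  have hK : ∀ ρ, pT.ker ≤ (tp ρ).ker := by
    intro ρ
    rw [hpT, hs0]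
    exact inf_le_right.trans (iInf_le _ ρ)
  -- uniformizer
  obtain ⟨ϖ, hϖ⟩ := IsDiscreteValuationRing.exists_irreducible 𝒪
  have hmax : maximalIdeal 𝒪 = Ideal.span {ϖ} := hϖ.maximalIdeal_eq
  have hϖm0 : (MvPolynomial.C ϖ : MvPolynomial X 𝒪) ∈ P.m0 := by
    show (MvPolynomial.aeval P.rbar : MvPolynomial X 𝒪 →ₐ[𝒪] ResidueField 𝒪) (MvPolynomial.C ϖ) = 0
    rw [MvPolynomial.aeval_C]
    show IsLocalRing.residue 𝒪 ϖ = 0
    rw [IsLocalRing.residue_eq_zero_iff, hmax]
    exact Ideal.mem_span_singleton_self ϖ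
  -- lifts of the elements of the maximal ideal of `pT.A`
  have hlift : ∀ a : ↥(maximalIdeal pT.A), ∃ z : MvPolynomial X 𝒪, z ∈ P.m0 ∧ pT.ev z = a := by
    intro a
    have ha : (a : pT.A) ∈ P.m0.map pT.ev := by
      rw [pT.map_m0 hP hpTg]; exact a.2
    exact (Ideal.mem_map_iff_of_surjective pT.ev hpTg).1 ha
  choose lift hlift0 hlift1 using hlift
  let t' : Option ↥(maximalIdeal pT.A) → MvPolynomial X 𝒪 := fun o =>
    o.elim (MvPolynomial.C ϖ) lift
  have ht' : ∀ o, t' o ∈ P.m0 := by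
    intro o
    cases o with
    | none => exact hϖm0
    | some a => exact hlift0 a
  let e : Option ↥(maximalIdeal pT.A) ≃ Fin (Nat.card (Option ↥(maximalIdeal pT.A))) :=
    Finite.equivFin _
  refine ⟨Nat.card (Option ↥(maximalIdeal pT.A)), fun i => t' (e.symm i), fun i => ht' _, ?_⟩
  intro p hg
  have hrange : (Set.range fun i => p.ev (t' (e.symm i))) = Set.range fun o => p.ev (t' o) := by
    ext y
    constructor
    · rintro ⟨i, rfl⟩; exact ⟨e.symm i, rfl⟩
    · rintro ⟨o, rfl⟩; exact ⟨e o, by simp⟩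
  rw [hrange]
  have hcomap := p.comap_maximalIdeal hP
  have hle : Ideal.span (Set.range fun o => p.ev (t' o)) ≤ maximalIdeal p.A := by
    rw [Ideal.span_le]
    rintro _ ⟨o, rfl⟩
    have : t' o ∈ (maximalIdeal p.A).comap p.ev := by rw [hcomap]; exact ht' o
    exact this
  refine le_antisymm hle ?_
  -- the square-zero quotient point
  have hI : P.m0 ^ 2 ⊔ Ideal.span {(MvPolynomial.C ϖ : MvPolynomial X 𝒪)} ≤ P.m0 :=
    sup_le (Ideal.pow_le_self (by norm_num)) ((Ideal.span_singleton_le_iff_mem _).2 hϖm0)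
  obtain ⟨s, hsg, hs⟩ := p.exists_sup hP hg _ hI
  have h2 : maximalIdeal s.A ^ 2 = ⊥ :=
    s.pow_eq_bot hP hsg 2 (by rw [hs]; exact le_sup_left.trans le_sup_right)
  have hCϖ : s.ev (MvPolynomial.C ϖ) = 0 := by
    have : (MvPolynomial.C ϖ : MvPolynomial X 𝒪) ∈ s.ker := by
      rw [hs]
      exact Ideal.mem_sup_right (Ideal.mem_sup_right (Ideal.mem_span_singleton_self _))
    exact this
  have hϖ' : ∀ a ∈ maximalIdeal 𝒪, algebraMap 𝒪 s.A a = 0 := by
    intro a ha
    rw [hmax, Ideal.mem_span_singleton'] at ha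
    obtain ⟨b, rfl⟩ := ha
    have : algebraMap 𝒪 s.A (b * ϖ) = s.ev (MvPolynomial.C b) * s.ev (MvPolynomial.C ϖ) := by
      rw [← map_mul, ← MvPolynomial.C_mul]
      exact (MvPolynomial.aeval_C _ _).symm
    rw [this, hCϖ, mul_zero]
  have hKs : pT.ker ≤ s.ker := by
    intro z hz
    by_contra hne
    have hne' : s.ev z ≠ 0 := hne
    obtain ⟨u, hu⟩ := exists_algHom_dualNumber_apply_ne_zero s.art h2 hϖ' (s.ev z) hne'
    let ρ : {r : X → DualNumber (ResidueField 𝒪) // P.F r} :=
      ⟨fun x => u (s.r x), hP.push s.art isArtinianTestAlgebra_dualNumber u s.hr⟩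
    have hz' : z ∈ (tp ρ).ker := hK ρ hz
    have hev : (tp ρ).ev = u.comp s.ev := (MvPolynomial.comp_aeval (f := s.r) u).symm
    apply hu
    have : (tp ρ).ev z = 0 := hz'
    rw [hev] at this
    exact this
  -- Nakayama
  have : IsArtinianRing p.A := p.art.isArtinian
  have hFG : (maximalIdeal p.A).FG := (isNoetherianRing_iff_ideal_fg p.A).1 inferInstance _
  refine Submodule.le_of_le_smul_of_le_jacobson_bot hFG (IsLocalRing.maximalIdeal_le_jacobson _) ?_
  intro a ha
  have ha' : a ∈ P.m0.map p.ev := by rw [p.map_m0 hP hg]; exact ha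
  obtain ⟨z, hz0, rfl⟩ := (Ideal.mem_map_iff_of_surjective p.ev hg).1 ha'
  have hzT : pT.ev z ∈ maximalIdeal pT.A := by
    have : z ∈ (maximalIdeal pT.A).comap pT.ev := by rw [pT.comap_maximalIdeal hP]; exact hz0
    exact this
  have hdiff : z - t' (some ⟨pT.ev z, hzT⟩) ∈ pT.ker := by
    show pT.ev (z - t' (some ⟨pT.ev z, hzT⟩)) = 0
    rw [map_sub, sub_eq_zero]
    exact (hlift1 ⟨pT.ev z, hzT⟩).symm
  have hdiff' := hKs hdiff
  rw [hs] at hdiff'
  obtain ⟨w1, hw1, w', hw', hsum⟩ := Submodule.mem_sup.1 hdiff'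
  obtain ⟨w2, hw2, w3, hw3, hsum'⟩ := Submodule.mem_sup.1 hw'
  have hev : p.ev z = p.ev (t' (some ⟨pT.ev z, hzT⟩)) + (p.ev w2 + p.ev w3) := by
    have h1 : p.ev w1 = 0 := hw1
    have : z = t' (some ⟨pT.ev z, hzT⟩) + (w1 + (w2 + w3)) := by
      rw [hsum', hsum]; ring
    conv_lhs => rw [this]
    rw [map_add, map_add, map_add, h1, zero_add]
  rw [hev]
  have hw2' : p.ev w2 ∈ maximalIdeal p.A • maximalIdeal p.A := by
    have : p.ev w2 ∈ (P.m0 ^ 2).map p.ev := Ideal.mem_map_of_mem _ hw2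
    rw [Ideal.map_pow, p.map_m0 hP hg, pow_two] at this
    exact this
  have hw3' : p.ev w3 ∈ Ideal.span (Set.range fun o => p.ev (t' o)) := by
    rw [Ideal.mem_span_singleton'] at hw3
    obtain ⟨c, rfl⟩ := hw3
    rw [map_mul]
    exact Ideal.mul_mem_left _ _ (Ideal.subset_span ⟨none, rfl⟩)
  refine Submodule.add_mem _ (Submodule.mem_sup_left (Ideal.subset_span ⟨_, rfl⟩)) ?_
  exact Submodule.add_mem _ (Submodule.mem_sup_right hw2') (Submodule.mem_sup_left hw3')

end Fermat.Agent.S53
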