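/-
S53 Part A (abstract pro-representability), work package A7 (least kernel at each level).
STATEMENTS ARE FROZEN (squad interface).  DONE (helper8375): this file is complete.
Helper lemmas: add them in THIS file, inside `namespace Fermat.Agent.S53`, names prefixed `least_`.
Notation: Pol = MvPolynomial X 𝒪, k = ResidueField 𝒪, p.ev : Pol → p.A, p.ker = ker p.ev,
m0 = ker (Pol → k).  See PtDefs.lean.
Proof: with `N, t` from A6 and A6a, every generated point `p` with `m0^(n+1) ≤ p.ker` is a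
quotient of `Q ⧸ M^(n+1)`, `Q = MvPolynomial (Fin N) 𝒪`, `M = ker (Q → k, Y_i ↦ 0)`, which
is finite (`Ideal.finite_quotient_pow`); so `Nat.card p.A` is bounded.  Pick such `p` of
maximal cardinality (nonempty by A1.8).  For any `q` with `m0^(n+1) ≤ q.ker`, A3.1 + A2 give a
generated `s` with `s.ker = p.ker ⊓ q.ker`; `s.A ↠ p.A` and maximality force
`s.ker = p.ker`, i.e. `p.ker ≤ q.ker`.
-/
import Fermat.Agent.S53.Abstract.PtDefs
import Fermat.Agent.S53.ArtTest
import Fermat.Agent.S53.Abstract.PtBasic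
import Fermat.Agent.S53.Abstract.PtGen
import Fermat.Agent.S53.Abstract.PtInf
import Fermat.Agent.S53.Abstract.GenSurj
import Fermat.Agent.S53.Abstract.Gens

set_option autoImplicit false

namespace Fermat.Agent.S53

open IsLocalRing GaloisRep

variable {𝒪 : Type} [CommRing 𝒪] [IsDomain 𝒪] [IsDiscreteValuationRing 𝒪]
  [Finite (ResidueField 𝒪)] {X : Type} {P : LiftProblem 𝒪 X}

/-- The ideal `M = ker (Q → k, Y_i ↦ 0)` of `Q = MvPolynomial (Fin N) 𝒪`. -/
noncomputable def least_M (𝒪 : Type) [CommRing 𝒪] [IsLocalRing 𝒪] (N : ℕ) :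
    Ideal (MvPolynomial (Fin N) 𝒪) :=
  RingHom.ker ((MvPolynomial.aeval (fun _ => 0) :
    MvPolynomial (Fin N) 𝒪 →ₐ[𝒪] ResidueField 𝒪) : MvPolynomial (Fin N) 𝒪 →+* ResidueField 𝒪)

/-- `Q ⧸ M` is finite (it embeds into the finite residue field). -/
theorem least_finite_quot_M (N : ℕ) : Finite (MvPolynomial (Fin N) 𝒪 ⧸ least_M 𝒪 N) :=
  Finite.of_injective _ (RingHom.kerLift_injective
    ((MvPolynomial.aeval (fun _ => 0) :
      MvPolynomial (Fin N) 𝒪 →ₐ[𝒪] ResidueField 𝒪) : MvPolynomial (Fin N) 𝒪 →+* ResidueField 𝒪))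

/-- `Q ⧸ M ^ n` is finite. -/
theorem least_finite_quot_M_pow (N n : ℕ) :
    Finite (MvPolynomial (Fin N) 𝒪 ⧸ least_M 𝒪 N ^ n) := by
  have := least_finite_quot_M (𝒪 := 𝒪) N
  exact Ideal.finite_quotient_pow (IsNoetherian.noetherian _) n

omit [Finite (ResidueField 𝒪)] in
/-- The evaluation `Y_i ↦ a_i` at elements of the maximal ideal sends `M` into the maximal
ideal. -/
theorem least_M_le_comap {A : Type} [CommRing A] [IsLocalRing A] [Algebra 𝒪 A]
    (hA : IsArtinianTestAlgebra 𝒪 A) {N : ℕ} (a : Fin N → A)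
    (ha : ∀ i, a i ∈ maximalIdeal A) :
    least_M 𝒪 N ≤ (maximalIdeal A).comap
      ((MvPolynomial.aeval a : MvPolynomial (Fin N) 𝒪 →ₐ[𝒪] A) : MvPolynomial (Fin N) 𝒪 →+* A) := by
  have := hA.isLocalHom
  have key : (IsLocalRing.residue A).comp
      ((MvPolynomial.aeval a : MvPolynomial (Fin N) 𝒪 →ₐ[𝒪] A) : MvPolynomial (Fin N) 𝒪 →+* A) =
      (IsLocalRing.ResidueField.map (algebraMap 𝒪 A)).comp
        ((MvPolynomial.aeval (fun _ => 0) : MvPolynomial (Fin N) 𝒪 →ₐ[𝒪] ResidueField 𝒪) :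
          MvPolynomial (Fin N) 𝒪 →+* ResidueField 𝒪) := by
    apply MvPolynomial.ringHom_ext
    · intro r
      simp only [RingHom.comp_apply, RingHom.coe_coe, MvPolynomial.aeval_C]
      rw [IsLocalRing.ResidueField.algebraMap_eq, IsLocalRing.ResidueField.map_residue]
    · intro i
      simp only [RingHom.comp_apply, RingHom.coe_coe, MvPolynomial.aeval_X, map_zero]
      exact (IsLocalRing.residue_eq_zero_iff _).mpr (ha i)
  intro f hf
  rw [least_M, RingHom.mem_ker] at hf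
  rw [Ideal.mem_comap, ← IsLocalRing.residue_eq_zero_iff]
  have h := congrArg (fun φ : MvPolynomial (Fin N) 𝒪 →+* ResidueField A => φ f) key
  simp only [RingHom.comp_apply] at h
  rw [h, hf, map_zero]

/-- Cardinality bound: an Artinian test algebra whose maximal ideal is generated by `N`
elements and has vanishing `(n+1)`-st power is a quotient of `Q ⧸ M ^ (n+1)`. -/
theorem least_card_le {A : Type} [CommRing A] [IsLocalRing A] [Algebra 𝒪 A]
    (hA : IsArtinianTestAlgebra 𝒪 A) {N : ℕ} (a : Fin N → A)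
    (ha : Ideal.span (Set.range a) = maximalIdeal A) (n : ℕ)
    (hn : maximalIdeal A ^ (n + 1) = ⊥) :
    Nat.card A ≤ Nat.card (MvPolynomial (Fin N) 𝒪 ⧸ least_M 𝒪 N ^ (n + 1)) := by
  have hφ : Function.Surjective
      ((MvPolynomial.aeval a : MvPolynomial (Fin N) 𝒪 →ₐ[𝒪] A) : MvPolynomial (Fin N) 𝒪 →+* A) :=
    aeval_surjective_of_span_eq_maximalIdeal hA a ha
  have ha' : ∀ i, a i ∈ maximalIdeal A := fun i => by
    rw [← ha]; exact Ideal.subset_span ⟨i, rfl⟩
  have hM := least_M_le_comap hA a ha'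
  have hker : ∀ x ∈ least_M 𝒪 N ^ (n + 1),
      ((MvPolynomial.aeval a : MvPolynomial (Fin N) 𝒪 →ₐ[𝒪] A) :
        MvPolynomial (Fin N) 𝒪 →+* A) x = 0 := by
    intro x hx
    have h1 : x ∈ (maximalIdeal A ^ (n + 1)).comap
        ((MvPolynomial.aeval a : MvPolynomial (Fin N) 𝒪 →ₐ[𝒪] A) :
          MvPolynomial (Fin N) 𝒪 →+* A) :=
      Ideal.le_comap_pow _ _ (Ideal.pow_right_mono hM _ hx)
    rw [hn, Ideal.mem_comap, Ideal.mem_bot] at h1
    exact h1
  have := least_finite_quot_M_pow (𝒪 := 𝒪) N (n + 1)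
  exact Nat.card_le_card_of_surjective (Ideal.Quotient.lift _ _ hker)
    (Ideal.Quotient.lift_surjective_of_surjective _ hker hφ)

omit [Finite (ResidueField 𝒪)] in
/-- If `s.ker ≤ p.ker` for generated points and `s.A` is not larger than `p.A`, then the
kernels agree. -/
theorem least_ker_le_of_card_le (p s : P.Pt) (hs : s.IsGen) (hp : p.IsGen) (hfin : Finite s.A)
    (hker : s.ker ≤ p.ker) (hcard : Nat.card s.A ≤ Nat.card p.A) : p.ker ≤ s.ker := by
  let g : s.A → p.A := fun a => p.ev (Function.surjInv hs a)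
  have hg : ∀ f, g (s.ev f) = p.ev f := by
    intro f
    have h1 : s.ev (Function.surjInv hs (s.ev f)) = s.ev f := Function.surjInv_eq hs _
    have h2 : Function.surjInv hs (s.ev f) - f ∈ s.ker := by
      rw [LiftProblem.Pt.ker, RingHom.mem_ker, map_sub, h1, sub_self]
    have h3 := hker h2
    rw [LiftProblem.Pt.ker, RingHom.mem_ker, map_sub, sub_eq_zero] at h3
    exact h3
  have hgs : Function.Surjective g := by
    intro b
    obtain ⟨f, rfl⟩ := hp b
    exact ⟨s.ev f, hg f⟩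
  have hgi : Function.Injective g := (hgs.bijective_of_nat_card_le hcard).1
  intro f hf
  rw [LiftProblem.Pt.ker, RingHom.mem_ker] at hf ⊢
  apply hgi
  have h0 := hg 0
  rw [map_zero, map_zero] at h0
  rw [hg f, hf, h0]

/-- A7. -/
theorem LiftProblem.exists_least_pt (hP : P.Axioms) (n : ℕ) :
    ∃ p : P.Pt, p.IsGen ∧ P.m0 ^ (n + 1) ≤ p.ker ∧
      ∀ q : P.Pt, P.m0 ^ (n + 1) ≤ q.ker → p.ker ≤ q.ker := by
  classical
  obtain ⟨N, t, -, hspan⟩ := LiftProblem.exists_uniform_generators hP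
  have hbound : ∀ p : P.Pt, p.IsGen → P.m0 ^ (n + 1) ≤ p.ker →
      Nat.card p.A ≤ Nat.card (MvPolynomial (Fin N) 𝒪 ⧸ least_M 𝒪 N ^ (n + 1)) := by
    intro p hg hp
    exact least_card_le p.art _ (hspan p hg) n (LiftProblem.Pt.pow_eq_bot hP p hg (n + 1) hp)
  obtain ⟨p0, hg0, hk0⟩ := LiftProblem.exists_basePt hP
  have h0 : P.m0 ^ (n + 1) ≤ p0.ker := by
    rw [hk0]; exact Ideal.pow_le_self (Nat.succ_ne_zero n)
  let Pred : ℕ → Prop := fun m =>
    ∃ p : P.Pt, p.IsGen ∧ P.m0 ^ (n + 1) ≤ p.ker ∧ Nat.card p.A = m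
  have hex : Pred (Nat.card p0.A) := ⟨p0, hg0, h0, rfl⟩
  obtain ⟨p, hg, hp, hcard⟩ := Nat.findGreatest_spec (P := Pred) (hbound p0 hg0 h0) hex
  have hmax : ∀ q : P.Pt, q.IsGen → P.m0 ^ (n + 1) ≤ q.ker → Nat.card q.A ≤ Nat.card p.A := by
    intro q hgq hq
    rw [hcard]
    exact Nat.le_findGreatest (P := Pred) (hbound q hgq hq) ⟨q, hgq, hq, rfl⟩
  refine ⟨p, hg, hp, fun q hq => ?_⟩
  obtain ⟨s, hs⟩ := LiftProblem.Pt.exists_inf hP p q
  obtain ⟨s', hgs', hs'⟩ := LiftProblem.Pt.exists_isGen hP s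
  have hs'k : s'.ker = p.ker ⊓ q.ker := hs'.trans hs
  have hle : Nat.card s'.A ≤ Nat.card p.A :=
    hmax s' hgs' (by rw [hs'k]; exact le_inf hp hq)
  have hfin : Finite s'.A := IsArtinianTestAlgebra.finite s'.art
  have h1 : p.ker ≤ s'.ker :=
    least_ker_le_of_card_le p s' hgs' hg hfin (by rw [hs'k]; exact inf_le_left) hle
  exact (h1.trans hs'k.le).trans inf_le_right

end Fermat.Agent.S53
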