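/-
S53 Part A (abstract pro-representability), work package A10 (completeness of the limit ring).
COMPLETE (helper9695): A10.1, A10.2, A10.3 proved; statements unchanged from skeleton 7385a00.
Helper lemmas are prefixed `limComplete_`.  Only the fields of `Tower.Lim`, `T.gen` and
`(T.pt 0).art` are used (no other S53 lemma).
Hausdorff: `π_sep` + `ker_π`.  Precomplete: for a Cauchy `f`, choose `g n : Pol` with
`(pt n).ev (g n) = π n (f (n+1))` (`T.gen`); `g (n+1) - g n ∈ (pt n).ker` by `π_compat`
and `ker_π`; apply `π_lim`.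
Local hom / residue field: push forward along `π 0` and use `(pt 0).art`.
-/
import Fermat.Agent.S53.Abstract.PtDefs
import Fermat.Agent.S53.ArtTest
import Fermat.Agent.S53.Abstract.PtBasic

set_option autoImplicit false

namespace Fermat.Agent.S53

open IsLocalRing GaloisRep

variable {𝒪 : Type} [CommRing 𝒪] [IsDomain 𝒪] [IsDiscreteValuationRing 𝒪]
  [Finite (ResidueField 𝒪)] {X : Type} {P : LiftProblem 𝒪 X}

/-- Membership in the `n`-th power of the maximal ideal, phrased with `SModEq`. -/
theorem limComplete_smodEq_iff {R : Type} [CommRing R] (I : Ideal R) (n : ℕ) (x y : R) :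
    x ≡ y [SMOD (I ^ n • ⊤ : Submodule R R)] ↔ x - y ∈ I ^ n := by
  rw [SModEq.sub_mem, smul_eq_mul, Ideal.mul_top]

/-- An element is in `𝔪 ^ (n+1)` iff it is killed by `π n`. -/
theorem limComplete_mem_pow_iff {T : P.Tower} (L : T.Lim) (n : ℕ) (x : L.R) :
    x ∈ maximalIdeal L.R ^ (n + 1) ↔ L.π n x = 0 := by
  rw [← L.ker_π n, RingHom.mem_ker]

/-- The projection `π 0` reflects membership in the maximal ideal. -/
theorem limComplete_mem_maximalIdeal_of_π {T : P.Tower} (L : T.Lim) (n : ℕ) (x : L.R)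
    (hx : L.π n x ∈ maximalIdeal (T.pt n).A) : x ∈ maximalIdeal L.R := by
  by_contra h
  have hu : IsUnit x := by
    by_contra hu
    exact h ((IsLocalRing.mem_maximalIdeal x).mpr hu)
  have hu' : IsUnit (L.π n x) := hu.map (L.π n)
  exact ((IsLocalRing.mem_maximalIdeal _).mp hx) hu'

/-- A10.1 -/
theorem LiftProblem.Tower.Lim.isAdicComplete (hP : P.Axioms) {T : P.Tower} (L : T.Lim) :
    IsAdicComplete (maximalIdeal L.R) L.R := by
  have hH : IsHausdorff (maximalIdeal L.R) L.R := by
    refine ⟨fun x hx => L.π_sep x fun n => ?_⟩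
    have h1 := hx (n + 1)
    rw [limComplete_smodEq_iff, sub_zero] at h1
    exact (limComplete_mem_pow_iff L n x).mp h1
  have hPc : IsPrecomplete (maximalIdeal L.R) L.R := by
    refine ⟨fun f hf => ?_⟩
    -- choose polynomial representatives of `π n (f (n+1))`
    have hg : ∀ n : ℕ, ∃ g : MvPolynomial X 𝒪, (T.pt n).ev g = L.π n (f (n + 1)) :=
      fun n => T.gen n (L.π n (f (n + 1)))
    choose g hg using hg
    have hcompat : ∀ n : ℕ, g (n + 1) - g n ∈ (T.pt n).ker := by
      intro n
      have h1 : L.π n (f (n + 2)) = (T.pt n).ev (g (n + 1)) :=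
        L.π_compat n (f (n + 2)) (g (n + 1)) (hg (n + 1)).symm
      have h2 : L.π n (f (n + 1)) = L.π n (f (n + 2)) := by
        have h3 := hf (Nat.le_succ (n + 1))
        rw [limComplete_smodEq_iff] at h3
        have h4 := (limComplete_mem_pow_iff L n _).mp h3
        rw [map_sub, sub_eq_zero] at h4
        exact h4
      show (T.pt n).ev (g (n + 1) - g n) = 0
      rw [map_sub, ← h1, ← h2, hg n, sub_self]
    obtain ⟨x, hx⟩ := L.π_lim g hcompat
    refine ⟨x, fun n => ?_⟩
    rw [limComplete_smodEq_iff]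
    cases n with
    | zero => rw [pow_zero, Ideal.one_eq_top]; exact Submodule.mem_top
    | succ n =>
      rw [limComplete_mem_pow_iff, map_sub, hx n, hg n, sub_self]
  exact { toIsHausdorff := hH, toIsPrecomplete := hPc }

/-- A10.2 -/
theorem LiftProblem.Tower.Lim.isLocalHom_algebraMap (hP : P.Axioms) {T : P.Tower}
    (L : T.Lim) : IsLocalHom (algebraMap 𝒪 L.R) := by
  refine ⟨fun a ha => ?_⟩
  have h0 : IsLocalHom (algebraMap 𝒪 (T.pt 0).A) := (T.pt 0).art.isLocalHom
  have h1 : IsUnit (L.π 0 (algebraMap 𝒪 L.R a)) := ha.map (L.π 0)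
  rw [AlgHom.commutes] at h1
  exact h0.map_nonunit a h1

/-- A10.3 -/
theorem LiftProblem.Tower.Lim.residue_surjective (hP : P.Axioms) {T : P.Tower} (L : T.Lim) :
    Function.Surjective (IsLocalRing.residue L.R ∘ algebraMap 𝒪 L.R) := by
  intro y
  obtain ⟨x, rfl⟩ := IsLocalRing.residue_surjective y
  obtain ⟨a, ha⟩ := (T.pt 0).art.residue_surjective (IsLocalRing.residue (T.pt 0).A (L.π 0 x))
  refine ⟨a, ?_⟩
  rw [Function.comp_apply] at ha ⊢
  rw [← sub_eq_zero, ← map_sub, IsLocalRing.residue_eq_zero_iff]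
  apply limComplete_mem_maximalIdeal_of_π L 0
  rw [map_sub, AlgHom.commutes, ← IsLocalRing.residue_eq_zero_iff, map_sub, ha, sub_self]

end Fermat.Agent.S53
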