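/-
S53 Part A (abstract pro-representability), work package A9a (the projections are algebra maps).
STATEMENTS ARE FROZEN (squad interface): do not change them.  Replace each `sorry` by a proof.
Helper lemmas: add them in THIS file, inside `namespace Fermat.Agent.S53`, names prefixed `projHom_`.
You may import and use any other S53 file (statements there may still be `sorry`), as long as
no import cycle arises (see the imports of `Fermat/Agent/S53/Abstract.lean` for the order).
Notation: Pol = MvPolynomial X 𝒪, k = ResidueField 𝒪, p.ev : Pol → p.A, p.ker = ker p.ev,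
m0 = ker (Pol → k).  See PtDefs.lean.
Proof of `proj_apply`: build
`(Ideal.Quotient.liftₐ (idealOfVars ^ (n+1)) (T.polyMap n) polyMap_eq_zero).comp
  ((MvPowerSeries.truncTotalAlgHom (Fin T.N) 𝒪 (n+1)).restrictScalars 𝒪)`,
show it agrees with `T.projFun n`, then unfold `Tower.proj` (`dif_pos`, `Exists.choose_spec`).
`polyMap_eq_zero`: `idealOfVars` maps into `maximalIdeal (pt n).A` (T.ht + A1.2) whose
`(n+1)`-st power vanishes (T.level + A1.6).
-/
import Fermat.Agent.S53.Abstract.PtDefs
import Fermat.Agent.S53.ArtTest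
import Fermat.Agent.S53.Abstract.PtBasic
import Fermat.Agent.S53.Abstract.GenSurj

set_option autoImplicit false

namespace Fermat.Agent.S53

open IsLocalRing GaloisRep

variable {𝒪 : Type} [CommRing 𝒪] [IsDomain 𝒪] [IsDiscreteValuationRing 𝒪]
  [Finite (ResidueField 𝒪)] {X : Type} {P : LiftProblem 𝒪 X}

/-- A9a.1 (A6a + `T.span`). -/
theorem LiftProblem.Tower.polyMap_surjective (hP : P.Axioms) (T : P.Tower) (n : ℕ) :
    Function.Surjective (T.polyMap n) := by
  have h : T.polyMap n = MvPolynomial.aeval (fun i => (T.pt n).ev (T.t i)) := by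
    apply MvPolynomial.algHom_ext
    intro i
    simp [LiftProblem.Tower.polyMap, LiftProblem.Tower.gens]
  rw [h]
  exact aeval_surjective_of_span_eq_maximalIdeal (T.pt n).art _ (T.span n)

/-- A9a.2 -/
theorem LiftProblem.Tower.polyMap_eq_zero (hP : P.Axioms) (T : P.Tower) (n : ℕ)
    (f : MvPolynomial (Fin T.N) 𝒪)
    (hf : f ∈ MvPolynomial.idealOfVars (Fin T.N) 𝒪 ^ (n + 1)) : T.polyMap n f = 0 := by
  have h1 : (MvPolynomial.idealOfVars (Fin T.N) 𝒪).map (T.polyMap n) ≤
      maximalIdeal (T.pt n).A := by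
    rw [Ideal.map_span, Ideal.span_le]
    rintro _ ⟨_, ⟨i, rfl⟩, rfl⟩
    have hi : T.t i ∈ (maximalIdeal (T.pt n).A).comap (T.pt n).ev := by
      rw [LiftProblem.Pt.comap_maximalIdeal hP]
      exact T.ht i
    simpa [LiftProblem.Tower.polyMap, LiftProblem.Tower.gens] using hi
  have h2 : maximalIdeal (T.pt n).A ^ (n + 1) = ⊥ :=
    LiftProblem.Pt.pow_eq_bot hP (T.pt n) (T.gen n) (n + 1) (T.level n)
  have h3 : T.polyMap n f ∈ maximalIdeal (T.pt n).A ^ (n + 1) := by
    have h4 := Ideal.mem_map_of_mem (T.polyMap n) hf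
    rw [Ideal.map_pow] at h4
    exact Ideal.pow_right_mono h1 _ h4
  rw [h2] at h3
  simpa using h3

/-- A9a.3 -/
theorem LiftProblem.Tower.proj_apply (hP : P.Axioms) (T : P.Tower) (n : ℕ) (s : T.PS) :
    T.proj n s = T.polyMap n (MvPowerSeries.truncTotal (n + 1) s) := by
  have key : ∃ π : T.PS →ₐ[𝒪] (T.pt n).A, ∀ s, π s = T.projFun n s := by
    let q : MvPolynomial (Fin T.N) 𝒪 ⧸ MvPolynomial.idealOfVars (Fin T.N) 𝒪 ^ (n + 1) →+*
        (T.pt n).A :=
      Ideal.Quotient.lift _ (T.polyMap n : MvPolynomial (Fin T.N) 𝒪 →+* (T.pt n).A)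
        (fun f hf => T.polyMap_eq_zero hP n f hf)
    let π0 : T.PS →+* (T.pt n).A :=
      q.comp (MvPowerSeries.truncTotalAlgHom (Fin T.N) 𝒪 (n + 1)).toRingHom
    have hπ0 : ∀ s, π0 s = T.projFun n s := by
      intro s
      rfl
    refine ⟨{ π0 with commutes' := ?_ }, fun s => hπ0 s⟩
    intro r
    change π0 (algebraMap 𝒪 T.PS r) = _
    rw [hπ0]
    unfold LiftProblem.Tower.projFun
    have hC : MvPowerSeries.truncTotal (n + 1) (algebraMap 𝒪 T.PS r) = MvPolynomial.C r := by
      rw [Algebra.algebraMap_eq_smul_one, map_smul,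
        MvPowerSeries.truncTotal_one (Nat.succ_ne_zero n), MvPolynomial.smul_eq_C_mul, mul_one]
    rw [hC]
    simp
  unfold LiftProblem.Tower.proj
  rw [dif_pos key]
  exact key.choose_spec s

end Fermat.Agent.S53
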