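/-
S53 Part A (abstract pro-representability), work package A8 (the tower).
STATEMENTS ARE FROZEN (squad interface): do not change them.  Replace each `sorry` by a proof.
Helper lemmas: add them in THIS file, inside `namespace Fermat.Agent.S53`, names prefixed `tower_`.
You may import and use any other S53 file (statements there may still be `sorry`), as long as
no import cycle arises (see the imports of `Fermat/Agent/S53/Abstract.lean` for the order).
Notation: Pol = MvPolynomial X 𝒪, k = ResidueField 𝒪, p.ev : Pol → p.A, p.ker = ker p.ev,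
m0 = ker (Pol → k).  See PtDefs.lean.
-/
import Fermat.Agent.S53.Abstract.PtDefs
import Fermat.Agent.S53.ArtTest
import Fermat.Agent.S53.Abstract.PtBasic
import Fermat.Agent.S53.Abstract.PtQuot
import Fermat.Agent.S53.Abstract.Gens
import Fermat.Agent.S53.Abstract.Least

set_option autoImplicit false

namespace Fermat.Agent.S53

open IsLocalRing GaloisRep

variable {𝒪 : Type} [CommRing 𝒪] [IsDomain 𝒪] [IsDiscreteValuationRing 𝒪]
  [Finite (ResidueField 𝒪)] {X : Type} {P : LiftProblem 𝒪 X}

/-- A8.1 (A6 + A7 + choice). -/
theorem LiftProblem.exists_tower (hP : P.Axioms) : Nonempty P.Tower := by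
  obtain ⟨N, t, ht, hspan⟩ := LiftProblem.exists_uniform_generators hP
  choose pt hgen hlevel hleast using fun n : ℕ => LiftProblem.exists_least_pt hP n
  exact ⟨{ N := N
           t := t
           ht := ht
           pt := pt
           gen := hgen
           level := hlevel
           least := hleast
           span := fun n => hspan (pt n) (hgen n) }⟩

/-- A8.2 -/
theorem LiftProblem.Tower.ker_anti (T : P.Tower) (n : ℕ) :
    (T.pt (n + 1)).ker ≤ (T.pt n).ker := by
  refine T.least (n + 1) (T.pt n) ?_
  exact (Ideal.pow_le_pow_right (Nat.le_succ (n + 1))).trans (T.level n)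

/-- A8.3 (A4 with `I = m0^(n+1)` and minimality). -/
theorem LiftProblem.Tower.ker_succ (hP : P.Axioms) (T : P.Tower) (n : ℕ) :
    (T.pt n).ker = (T.pt (n + 1)).ker ⊔ P.m0 ^ (n + 1) := by
  apply le_antisymm
  · have hI : P.m0 ^ (n + 1) ≤ P.m0 := Ideal.pow_le_self (Nat.succ_ne_zero n)
    obtain ⟨s, -, hs⟩ := LiftProblem.Pt.exists_sup hP (T.pt (n + 1)) (T.gen (n + 1))
      (P.m0 ^ (n + 1)) hI
    rw [← hs]
    refine T.least n s ?_
    rw [hs]
    exact le_sup_right
  · exact sup_le (T.ker_anti n) (T.level n)

end Fermat.Agent.S53
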