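/-
S53 Part A (abstract pro-representability), work package A9b (properties of the projections).
STATEMENTS ARE FROZEN (squad interface): do not change them.  Replace each `sorry` by a proof.
Helper lemmas: add them in THIS file, inside `namespace Fermat.Agent.S53`, names prefixed `projProps_`.
You may import and use any other S53 file (statements there may still be `sorry`), as long as
no import cycle arises (see the imports of `Fermat/Agent/S53/Abstract.lean` for the order).
Notation: Pol = MvPolynomial X 𝒪, k = ResidueField 𝒪, p.ev : Pol → p.A, p.ker = ker p.ev,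
m0 = ker (Pol → k).  See PtDefs.lean.
Everything follows from `proj_apply` (A9a), `truncTotal` lemmas in
Mathlib/RingTheory/MvPowerSeries/Equiv.lean and Trunc.lean, and the tower lemmas A8.
`ker_proj_succ` (⊆): for `s ∈ ker (proj n)` write `proj (n+1) s = (pt (n+1)).ev f`; by
`proj_compat` `f ∈ (pt n).ker = (pt (n+1)).ker ⊔ m0^(n+1)` (A8.3), so
`proj (n+1) s ∈ maximalIdeal^(n+1) = (I^(n+1)).map (proj (n+1))`.
-/
import Fermat.Agent.S53.Abstract.PtDefs
import Fermat.Agent.S53.ArtTest
import Fermat.Agent.S53.Abstract.PtBasic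
import Fermat.Agent.S53.Abstract.TowerExists
import Fermat.Agent.S53.Abstract.ProjHom

set_option autoImplicit false

namespace Fermat.Agent.S53

open IsLocalRing GaloisRep

variable {𝒪 : Type} [CommRing 𝒪] [IsDomain 𝒪] [IsDiscreteValuationRing 𝒪]
  [Finite (ResidueField 𝒪)] {X : Type} {P : LiftProblem 𝒪 X}

/-- `polyMap n` unfolded. -/
theorem projProps_polyMap_apply (T : P.Tower) (n : ℕ) (g : MvPolynomial (Fin T.N) 𝒪) :
    T.polyMap n g = (T.pt n).ev (T.gens g) := rfl

/-- A9b.1 -/
theorem LiftProblem.Tower.proj_coe (hP : P.Axioms) (T : P.Tower) (n : ℕ)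
    (f : MvPolynomial (Fin T.N) 𝒪) : T.proj n (f : T.PS) = T.polyMap n f := by
  rw [T.proj_apply hP]
  have h : MvPowerSeries.truncTotal (n + 1) (f : MvPowerSeries (Fin T.N) 𝒪) - f ∈
      MvPolynomial.idealOfVars (Fin T.N) 𝒪 ^ (n + 1) := by
    rw [MvPolynomial.mem_pow_idealOfVars_iff']
    intro x hx
    rw [MvPolynomial.coeff_sub, sub_eq_zero, MvPowerSeries.coeff_truncTotal _ hx,
      MvPolynomial.coeff_coe]
  have h0 := T.polyMap_eq_zero hP n _ h
  rw [map_sub, sub_eq_zero] at h0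
  exact h0

/-- A9b.2 -/
theorem LiftProblem.Tower.proj_surjective (hP : P.Axioms) (T : P.Tower) (n : ℕ) :
    Function.Surjective (T.proj n) := by
  intro a
  obtain ⟨f, rfl⟩ := T.polyMap_surjective hP n a
  exact ⟨(f : T.PS), T.proj_coe hP n f⟩

/-- A9b.3 Compatibility of the projections (transition maps are left implicit). -/
theorem LiftProblem.Tower.proj_compat (hP : P.Axioms) (T : P.Tower) (n : ℕ) (s : T.PS)
    (f : MvPolynomial X 𝒪) (h : T.proj (n + 1) s = (T.pt (n + 1)).ev f) :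
    T.proj n s = (T.pt n).ev f := by
  rw [T.proj_apply hP] at h ⊢
  have h1 : T.gens (MvPowerSeries.truncTotal (n + 1 + 1) s) - f ∈ (T.pt (n + 1)).ker := by
    rw [LiftProblem.Pt.ker, RingHom.mem_ker, map_sub, sub_eq_zero]
    exact h
  have h2 := T.ker_anti n h1
  rw [LiftProblem.Pt.ker, RingHom.mem_ker, map_sub, sub_eq_zero] at h2
  rw [← h2]
  have h3 : MvPowerSeries.truncTotal (n + 1) s - MvPowerSeries.truncTotal (n + 1 + 1) s ∈
      MvPolynomial.idealOfVars (Fin T.N) 𝒪 ^ (n + 1) :=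
    MvPowerSeries.truncTotal_sub_truncTotal_mem_pow_idealOfVars le_rfl (Nat.le_succ _) s
  have h4 := T.polyMap_eq_zero hP n _ h3
  rw [map_sub, sub_eq_zero] at h4
  exact h4

/-- The projection of a variable. -/
theorem projProps_proj_X (hP : P.Axioms) (T : P.Tower) (n : ℕ) (i : Fin T.N) :
    T.proj n (MvPowerSeries.X i) = (T.pt n).ev (T.t i) := by
  have h := T.proj_coe hP n (MvPolynomial.X i)
  rw [MvPolynomial.coe_X] at h
  rw [h, projProps_polyMap_apply, LiftProblem.Tower.gens, MvPolynomial.aeval_X]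

/-- A9b.5 -/
theorem LiftProblem.Tower.map_I_proj (hP : P.Axioms) (T : P.Tower) (n : ℕ) :
    T.I.map (T.proj n) = maximalIdeal (T.pt n).A := by
  rw [LiftProblem.Tower.I, Ideal.map_span, ← T.span n]
  congr 1
  ext a
  constructor
  · rintro ⟨_, ⟨i, rfl⟩, rfl⟩
    exact ⟨i, (projProps_proj_X hP T n i).symm⟩
  · rintro ⟨i, rfl⟩
    exact ⟨_, ⟨i, rfl⟩, projProps_proj_X hP T n i⟩

/-- A9b.4 -/
theorem LiftProblem.Tower.pow_le_ker_proj (hP : P.Axioms) (T : P.Tower) (n : ℕ) :
    T.I ^ (n + 1) ≤ RingHom.ker (T.proj n) := by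
  have h1 : maximalIdeal (T.pt n).A ^ (n + 1) = ⊥ :=
    (T.pt n).pow_eq_bot hP (T.gen n) (n + 1) (T.level n)
  intro s hs
  rw [RingHom.mem_ker]
  have h2 : T.proj n s ∈ (T.I ^ (n + 1)).map (T.proj n) := Ideal.mem_map_of_mem _ hs
  rw [Ideal.map_pow, T.map_I_proj hP, h1] at h2
  exact h2

/-- A9b.6 -/
theorem LiftProblem.Tower.ker_proj_succ (hP : P.Axioms) (T : P.Tower) (n : ℕ) :
    RingHom.ker (T.proj n) = RingHom.ker (T.proj (n + 1)) ⊔ T.I ^ (n + 1) := by
  apply le_antisymm
  · intro s hs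
    rw [RingHom.mem_ker] at hs
    -- write `proj (n+1) s = ev f`
    set f : MvPolynomial X 𝒪 := T.gens (MvPowerSeries.truncTotal (n + 1 + 1) s) with hf
    have h1 : T.proj (n + 1) s = (T.pt (n + 1)).ev f := by
      rw [T.proj_apply hP]; rfl
    have h2 : (T.pt n).ev f = 0 := by
      rw [← T.proj_compat hP n s f h1, hs]
    have h3 : f ∈ (T.pt (n + 1)).ker ⊔ P.m0 ^ (n + 1) := by
      rw [← T.ker_succ hP n]
      exact h2
    obtain ⟨f1, hf1, f2, hf2, hf12⟩ := Submodule.mem_sup.mp h3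
    have h4 : T.proj (n + 1) s = (T.pt (n + 1)).ev f2 := by
      rw [h1, ← hf12, map_add]
      have : (T.pt (n + 1)).ev f1 = 0 := hf1
      rw [this, zero_add]
    have h5 : (T.pt (n + 1)).ev f2 ∈ (T.I ^ (n + 1)).map (T.proj (n + 1)) := by
      rw [Ideal.map_pow, T.map_I_proj hP, ← (T.pt (n + 1)).map_m0 hP (T.gen (n + 1)),
        ← Ideal.map_pow]
      exact Ideal.mem_map_of_mem _ hf2
    obtain ⟨u, hu, hu2⟩ :=
      (Ideal.mem_map_iff_of_surjective (T.proj (n + 1)) (T.proj_surjective hP (n + 1))).mp h5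
    have h6 : s - u ∈ RingHom.ker (T.proj (n + 1)) := by
      rw [RingHom.mem_ker, map_sub, h4, hu2, sub_self]
    have : s = (s - u) + u := by ring
    rw [this]
    exact Submodule.add_mem_sup h6 hu
  · apply sup_le
    · intro s hs
      rw [RingHom.mem_ker] at hs ⊢
      have := T.proj_compat hP n s 0 (by rw [hs, map_zero])
      rw [this, map_zero]
    · exact T.pow_le_ker_proj hP n

end Fermat.Agent.S53
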