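/-
S53 Part A (abstract pro-representability), work package A9c (limit lemmas; uses (X)-adic completeness of power series).
STATEMENTS ARE FROZEN (squad interface): do not change them.  Replace each `sorry` by a proof.
Helper lemmas: add them in THIS file, inside `namespace Fermat.Agent.S53`, names prefixed `limLemma_`.
You may import and use any other S53 file (statements there may still be `sorry`), as long as
no import cycle arises (see the imports of `Fermat/Agent/S53/Abstract.lean` for the order).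
Notation: Pol = MvPolynomial X 𝒪, k = ResidueField 𝒪, p.ev : Pol → p.A, p.ker = ker p.ev,
m0 = ker (Pol → k).  See PtDefs.lean.
Uses the Mathlib instance
`IsAdicComplete (Ideal.span (Set.range MvPowerSeries.X)) (MvPowerSeries σ R)` (σ finite),
i.e. `IsPrecomplete.prec`, and A9b.
`exists_proj_eq`: choose `s n` with `proj n (s n) = (pt n).ev (f n)`; correct inductively to
`s' n` with the same property and `s' (n+1) - s' n ∈ I^(n+1)` (A9b.3, A9b.6); take the limit.
`ker_proj_eq` (⊆): for `s ∈ ker (proj n)` build `ι m ∈ I^(n+1)` with `s - ι m ∈ ker (proj m)`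
and `ι (m+1) - ι m ∈ I^(m+1)` (A9b.6); the limit `ι` satisfies `ι ∈ I^(n+1)`, `s - ι ∈ b`.
-/
import Fermat.Agent.S53.Abstract.PtDefs
import Fermat.Agent.S53.ArtTest
import Fermat.Agent.S53.Abstract.ProjProps

set_option autoImplicit false

namespace Fermat.Agent.S53

open IsLocalRing GaloisRep

/-- Helper: a chain of ideals with `K n = K (n+1) ⊔ I^(n+1)` is antitone. -/
theorem limLemma_anti {S : Type*} [CommRing S] (I : Ideal S) (K : ℕ → Ideal S)
    (h2 : ∀ n, K n = K (n + 1) ⊔ I ^ (n + 1)) {m n : ℕ} (h : m ≤ n) : K n ≤ K m := by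
  induction h with
  | refl => exact le_rfl
  | @step k _ ih =>
    have hk : K (k + 1) ≤ K k := by
      have := h2 k
      rw [this]
      exact le_sup_left
    exact le_trans hk ih

/-- Helper (abstract Mittag-Leffler, existence of a limit): in an `I`-adically precomplete ring
with a chain of ideals `K n = K (n+1) ⊔ I^(n+1) ⊇ I^(n+1)`, every `K`-compatible sequence has
a simultaneous limit. -/
theorem limLemma_exists_limit {S : Type*} [CommRing S] (I : Ideal S) [IsPrecomplete I S]
    (K : ℕ → Ideal S) (h1 : ∀ n, I ^ (n + 1) ≤ K n)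
    (h2 : ∀ n, K n = K (n + 1) ⊔ I ^ (n + 1))
    (σ : ℕ → S) (hσ : ∀ n, σ (n + 1) - σ n ∈ K n) :
    ∃ s : S, ∀ n, s - σ n ∈ K n := by
  have step : ∀ (n : ℕ) (a : S), a - σ n ∈ K n →
      ∃ a' : S, a' - σ (n + 1) ∈ K (n + 1) ∧ a' - a ∈ I ^ (n + 1) := by
    intro n a ha
    have h : σ (n + 1) - a ∈ K (n + 1) ⊔ I ^ (n + 1) := by
      rw [← h2 n]
      have e : σ (n + 1) - a = (σ (n + 1) - σ n) - (a - σ n) := by ring
      rw [e]
      exact (K n).sub_mem (hσ n) ha
    obtain ⟨κ, hκ, ι, hι, hsum⟩ := Submodule.mem_sup.mp h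
    refine ⟨a + ι, ?_, by simpa using hι⟩
    have e : a + ι - σ (n + 1) = -κ := by
      have : ι = σ (n + 1) - a - κ := by rw [← hsum]; ring
      rw [this]; ring
    rw [e]
    exact (K (n + 1)).neg_mem hκ
  let seq : (n : ℕ) → {a : S // a - σ n ∈ K n} := fun n =>
    Nat.rec ⟨σ 0, by simp⟩
      (fun n a => ⟨(step n a.1 a.2).choose, (step n a.1 a.2).choose_spec.1⟩) n
  have hseq : ∀ n, (seq (n + 1)).1 - (seq n).1 ∈ I ^ (n + 1) := fun n =>
    (step n (seq n).1 (seq n).2).choose_spec.2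
  have hcauchy : ∀ {m n : ℕ}, m ≤ n →
      (seq m).1 ≡ (seq n).1 [SMOD (I ^ m • ⊤ : Submodule S S)] := by
    intro m n hmn
    induction hmn with
    | refl => exact SModEq.refl _
    | @step n hmn ih =>
      have hmn' : m ≤ n := hmn
      refine ih.trans ?_
      rw [SModEq.sub_mem, smul_eq_mul, Ideal.mul_top]
      have : (seq n).1 - (seq (n + 1)).1 = -((seq (n + 1)).1 - (seq n).1) := by ring
      rw [this]
      exact (I ^ m).neg_mem (Ideal.pow_le_pow_right (by omega) (hseq n))
  obtain ⟨L, hL⟩ := IsPrecomplete.prec' (I := I) (fun n => (seq n).1) hcauchy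
  refine ⟨L, fun n => ?_⟩
  have hL' : (seq (n + 1)).1 - L ∈ I ^ (n + 1) := by
    have := hL (n + 1)
    rwa [SModEq.sub_mem, smul_eq_mul, Ideal.mul_top] at this
  have e : L - σ n = -((seq (n + 1)).1 - L) + ((seq (n + 1)).1 - σ (n + 1))
      + (σ (n + 1) - σ n) := by ring
  rw [e]
  refine (K n).add_mem ((K n).add_mem ((K n).neg_mem (h1 n hL')) ?_) (hσ n)
  exact limLemma_anti I K h2 (Nat.le_succ n) (seq (n + 1)).2

/-- Helper (abstract Mittag-Leffler, kernels): under the same hypotheses,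
`K n = (⨅ m, K m) ⊔ I^(n+1)`. -/
theorem limLemma_eq_iInf_sup {S : Type*} [CommRing S] (I : Ideal S) [IsPrecomplete I S]
    (K : ℕ → Ideal S) (h1 : ∀ n, I ^ (n + 1) ≤ K n)
    (h2 : ∀ n, K n = K (n + 1) ⊔ I ^ (n + 1)) (n : ℕ) :
    K n = (⨅ m, K m) ⊔ I ^ (n + 1) := by
  apply le_antisymm
  · intro s hs
    have step : ∀ (m : ℕ) (ι : S), ι ∈ I ^ (n + 1) → s - ι ∈ K (n + m) →
        ∃ ι' : S, ι' ∈ I ^ (n + 1) ∧ s - ι' ∈ K (n + (m + 1)) ∧ ι' - ι ∈ I ^ (m + 1) := by
      intro m ι hι hsι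
      have h : s - ι ∈ K (n + m + 1) ⊔ I ^ (n + m + 1) := by
        rw [← h2 (n + m)]; exact hsι
      obtain ⟨κ, hκ, j, hj, hsum⟩ := Submodule.mem_sup.mp h
      refine ⟨ι + j, (I ^ (n + 1)).add_mem hι (Ideal.pow_le_pow_right (by omega) hj), ?_, ?_⟩
      · have e : s - (ι + j) = κ := by
          have : j = s - ι - κ := by rw [← hsum]; ring
          rw [this]; ring
        rw [e]; exact hκ
      · have e : ι + j - ι = j := by ring
        rw [e]; exact Ideal.pow_le_pow_right (by omega) hj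
    let seq : (m : ℕ) → {ι : S // ι ∈ I ^ (n + 1) ∧ s - ι ∈ K (n + m)} := fun m =>
      Nat.rec ⟨0, (I ^ (n + 1)).zero_mem, by simpa using hs⟩
        (fun m a => ⟨(step m a.1 a.2.1 a.2.2).choose,
          (step m a.1 a.2.1 a.2.2).choose_spec.1, (step m a.1 a.2.1 a.2.2).choose_spec.2.1⟩) m
    have hseq : ∀ m, (seq (m + 1)).1 - (seq m).1 ∈ I ^ (m + 1) := fun m =>
      (step m (seq m).1 (seq m).2.1 (seq m).2.2).choose_spec.2.2
    have hcauchy : ∀ {a b : ℕ}, a ≤ b →
        (seq a).1 ≡ (seq b).1 [SMOD (I ^ a • ⊤ : Submodule S S)] := by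
      intro a b hab
      induction hab with
      | refl => exact SModEq.refl _
      | @step b hab ih =>
        have hab' : a ≤ b := hab
        refine ih.trans ?_
        rw [SModEq.sub_mem, smul_eq_mul, Ideal.mul_top]
        have : (seq b).1 - (seq (b + 1)).1 = -((seq (b + 1)).1 - (seq b).1) := by ring
        rw [this]
        exact (I ^ a).neg_mem (Ideal.pow_le_pow_right (by omega) (hseq b))
    obtain ⟨L, hL⟩ := IsPrecomplete.prec' (I := I) (fun m => (seq m).1) hcauchy
    have hL' : ∀ m, (seq m).1 - L ∈ I ^ m := by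
      intro m
      have := hL m
      rwa [SModEq.sub_mem, smul_eq_mul, Ideal.mul_top] at this
    have hLmem : L ∈ I ^ (n + 1) := by
      have e : L = (seq (n + 1)).1 - ((seq (n + 1)).1 - L) := by ring
      rw [e]
      exact (I ^ (n + 1)).sub_mem (seq (n + 1)).2.1 (hL' (n + 1))
    have hsL : s - L ∈ ⨅ m, K m := by
      rw [Ideal.mem_iInf]
      intro m
      have e : s - L = (s - (seq (m + 1)).1) + ((seq (m + 1)).1 - L) := by ring
      rw [e]
      refine (K m).add_mem ?_ (h1 m (hL' (m + 1)))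
      exact limLemma_anti I K h2 (by omega) (seq (m + 1)).2.2
    have e : s = (s - L) + L := by ring
    rw [e]
    exact Submodule.add_mem_sup hsL hLmem
  · exact sup_le (iInf_le K n) (h1 n)

variable {𝒪 : Type} [CommRing 𝒪] [IsDomain 𝒪] [IsDiscreteValuationRing 𝒪]
  [Finite (ResidueField 𝒪)] {X : Type} {P : LiftProblem 𝒪 X}

omit [Finite (ResidueField 𝒪)] in
/-- Helper: the power series ring of a tower is `I`-adically precomplete. -/
theorem limLemma_isPrecomplete (T : P.Tower) : IsPrecomplete T.I T.PS := by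
  have h : IsAdicComplete (Ideal.span (Set.range (MvPowerSeries.X : Fin T.N → T.PS)))
      (MvPowerSeries (Fin T.N) 𝒪) := inferInstance
  exact h.toIsPrecomplete

/-- A9c.1 (limit lemma). -/
theorem LiftProblem.Tower.exists_proj_eq (hP : P.Axioms) (T : P.Tower)
    (f : ℕ → MvPolynomial X 𝒪) (hf : ∀ n, f (n + 1) - f n ∈ (T.pt n).ker) :
    ∃ s : T.PS, ∀ n, T.proj n s = (T.pt n).ev (f n) := by
  have := limLemma_isPrecomplete T
  have hsurj : ∀ n, ∃ s : T.PS, T.proj n s = (T.pt n).ev (f n) := fun n =>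
    T.proj_surjective hP n _
  choose σ hσ using hsurj
  have hstep : ∀ n, σ (n + 1) - σ n ∈ RingHom.ker (T.proj n) := by
    intro n
    rw [RingHom.mem_ker, map_sub, hσ n, T.proj_compat hP n (σ (n + 1)) (f (n + 1)) (hσ (n + 1)),
      ← map_sub]
    exact hf n
  obtain ⟨s, hs⟩ := limLemma_exists_limit T.I (fun n => RingHom.ker (T.proj n))
    (T.pow_le_ker_proj hP) (T.ker_proj_succ hP) σ hstep
  refine ⟨s, fun n => ?_⟩
  have := hs n
  rw [RingHom.mem_ker, map_sub, sub_eq_zero] at this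
  rw [this, hσ n]

/-- A9c.2 -/
theorem LiftProblem.Tower.ker_proj_eq (hP : P.Axioms) (T : P.Tower) (n : ℕ) :
    RingHom.ker (T.proj n) = T.b ⊔ T.I ^ (n + 1) := by
  have := limLemma_isPrecomplete T
  exact limLemma_eq_iInf_sup T.I (fun n => RingHom.ker (T.proj n))
    (T.pow_le_ker_proj hP) (T.ker_proj_succ hP) n

end Fermat.Agent.S53
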