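/-
S53 Part A (abstract pro-representability), work package A9d (the limit ring R = PS ⧸ b).
STATEMENTS ARE FROZEN (squad interface): do not change them.  Replace each `sorry` by a proof.
Helper lemmas: add them in THIS file, inside `namespace Fermat.Agent.S53`, names prefixed `limRing_`.
You may import and use any other S53 file (statements there may still be `sorry`), as long as
no import cycle arises (see the imports of `Fermat/Agent/S53/Abstract.lean` for the order).
Notation: Pol = MvPolynomial X 𝒪, k = ResidueField 𝒪, p.ev : Pol → p.A, p.ker = ker p.ev,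
m0 = ker (Pol → k).  See PtDefs.lean.
Take `R = T.PS ⧸ T.b`, `π n = Ideal.Quotient.liftₐ T.b (T.proj n) _`.
Noetherian: Mathlib instance for `MvPowerSeries` + quotient.  Local: `T.PS` is local and
`T.b ≠ ⊤`.  `ker_π`: by A9c.2 `ker (π n) = (T.I.map mk)^(n+1)`; for `n = 0` the target is a
field (A1.6 with T.level 0), so `ker (π 0) = T.I.map mk` is the maximal ideal of `R`.
`π_lim` is A9c.1, `π_compat` is A9b.3.
-/
import Fermat.Agent.S53.Abstract.PtDefs
import Fermat.Agent.S53.ArtTest
import Fermat.Agent.S53.Abstract.ProjProps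
import Fermat.Agent.S53.Abstract.LimLemma

set_option autoImplicit false

namespace Fermat.Agent.S53

open IsLocalRing GaloisRep

variable {𝒪 : Type} [CommRing 𝒪] [IsDomain 𝒪] [IsDiscreteValuationRing 𝒪]
  [Finite (ResidueField 𝒪)] {X : Type} {P : LiftProblem 𝒪 X}

/-- A9d. -/
theorem LiftProblem.Tower.exists_lim (hP : P.Axioms) (T : P.Tower) : Nonempty T.Lim := by
  classical
  have hb_le : ∀ n, T.b ≤ RingHom.ker (T.proj n) := fun n => iInf_le _ n
  have hker0_ne : RingHom.ker (T.proj 0) ≠ ⊤ := RingHom.ker_ne_top _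
  have hb_ne : T.b ≠ ⊤ := fun h => hker0_ne (top_le_iff.mp (h ▸ hb_le 0))
  haveI : Nontrivial (T.PS ⧸ T.b) := Ideal.Quotient.nontrivial_iff.mpr hb_ne
  haveI : IsLocalRing (T.PS ⧸ T.b) :=
    IsLocalRing.of_surjective' (Ideal.Quotient.mk T.b) Ideal.Quotient.mk_surjective
  let π : ∀ n, (T.PS ⧸ T.b) →ₐ[𝒪] (T.pt n).A := fun n =>
    Ideal.Quotient.liftₐ T.b (T.proj n) (fun a ha => RingHom.mem_ker.mp (hb_le n ha))
  have hπmk : ∀ n (s : T.PS), π n (Ideal.Quotient.mk T.b s) = T.proj n s := fun n s => rfl
  have hπsurj : ∀ n, Function.Surjective (π n) := by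
    intro n y
    obtain ⟨s, rfl⟩ := T.proj_surjective hP n y
    exact ⟨Ideal.Quotient.mk T.b s, hπmk n s⟩
  -- the kernel of `π n` is the image of the kernel of `proj n`
  have hker : ∀ n, RingHom.ker (π n) =
      (T.I.map (Ideal.Quotient.mk T.b)) ^ (n + 1) := by
    intro n
    have h1 : (RingHom.ker (π n)).comap (Ideal.Quotient.mk T.b) =
        RingHom.ker (T.proj n) := by
      ext s
      simp only [Ideal.mem_comap, RingHom.mem_ker]
      exact Iff.rfl
    have h2 := Ideal.map_comap_of_surjective (Ideal.Quotient.mk T.b)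
      Ideal.Quotient.mk_surjective (RingHom.ker (π n))
    rw [← h2, h1, T.ker_proj_eq hP n, Ideal.map_sup, Ideal.map_quotient_self, bot_sup_eq,
      Ideal.map_pow]
  -- the maximal ideal of `(pt 0).A` vanishes
  have hm0 : maximalIdeal (T.pt 0).A = ⊥ := by
    have h := (T.pt 0).pow_eq_bot hP (T.gen 0) (0 + 1) (T.level 0)
    simpa using h
  have hmax : T.I.map (Ideal.Quotient.mk T.b) = maximalIdeal (T.PS ⧸ T.b) := by
    have h0 : RingHom.ker (π 0) = T.I.map (Ideal.Quotient.mk T.b) := by
      have := hker 0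
      simpa using this
    rw [← h0]
    haveI : (Ideal.comap (π 0) (maximalIdeal (T.pt 0).A)).IsMaximal :=
      Ideal.comap_isMaximal_of_surjective (π 0) (hπsurj 0)
    have h3 := IsLocalRing.eq_maximalIdeal (R := T.PS ⧸ T.b)
      (I := Ideal.comap (π 0) (maximalIdeal (T.pt 0).A)) inferInstance
    rw [hm0] at h3
    exact h3
  exact ⟨{
    R := T.PS ⧸ T.b
    π := π
    π_surj := hπsurj
    π_compat := by
      intro n x f h
      obtain ⟨s, rfl⟩ := Ideal.Quotient.mk_surjective x
      exact T.proj_compat hP n s f h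
    π_sep := by
      intro x hx
      obtain ⟨s, rfl⟩ := Ideal.Quotient.mk_surjective x
      rw [Ideal.Quotient.eq_zero_iff_mem, LiftProblem.Tower.b, Ideal.mem_iInf]
      exact fun n => RingHom.mem_ker.mpr (hx n)
    π_lim := by
      intro f hf
      obtain ⟨s, hs⟩ := T.exists_proj_eq hP f hf
      exact ⟨Ideal.Quotient.mk T.b s, hs⟩
    ker_π := by
      intro n
      rw [← hmax]
      exact hker n }⟩

end Fermat.Agent.S53
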