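/-
S53 Part A, file Univ.lean (A11).  STATEMENTS ARE FROZEN (squad interface): do not change them.
Replace each `sorry` by a proof.  Helper lemmas: add them in THIS file, inside
`namespace Fermat.Agent.S53`, with names prefixed `univ_` (fresh names).
-/
import Fermat.Agent.S53.Abstract.PtDefs
import Fermat.Agent.S53.ArtTest
import Fermat.Agent.S53.Abstract.PtBasic
import Fermat.Agent.S53.Abstract.LimComplete

set_option autoImplicit false

namespace Fermat.Agent.S53

open IsLocalRing GaloisRep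

variable {𝒪 : Type} [CommRing 𝒪] [IsDomain 𝒪] [IsDiscreteValuationRing 𝒪]
  [Finite (ResidueField 𝒪)] {X : Type} {P : LiftProblem 𝒪 X}

omit [Finite (ResidueField 𝒪)] in
/-- The universal family attached to a limit of a tower. -/
theorem univ_exists_u {T : P.Tower} (L : T.Lim) :
    ∃ u : X → L.R, ∀ (n : ℕ) (x : X), L.π n (u x) = (T.pt n).r x := by
  have h : ∀ x : X, ∃ y : L.R, ∀ n, L.π n y = (T.pt n).ev (MvPolynomial.X x) := fun x =>
    L.π_lim (fun _ => MvPolynomial.X x) (fun n => by simp)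
  choose u hu using h
  refine ⟨u, fun n x => ?_⟩
  rw [hu x n]
  simp [LiftProblem.Pt.ev]

omit [Finite (ResidueField 𝒪)] in
/-- `π n` of a polynomial in the universal family. -/
theorem univ_π_aeval {T : P.Tower} (L : T.Lim) (u : X → L.R)
    (hu : ∀ (n : ℕ) (x : X), L.π n (u x) = (T.pt n).r x) (n : ℕ) (f : MvPolynomial X 𝒪) :
    L.π n (MvPolynomial.aeval u f) = (T.pt n).ev f := by
  have h1 : (L.π n).comp (MvPolynomial.aeval u) = (T.pt n).ev := by
    apply MvPolynomial.algHom_ext
    intro x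
    simp [LiftProblem.Pt.ev, hu n x]
  exact DFunLike.congr_fun h1 f

omit [Finite (ResidueField 𝒪)] in
/-- Every element of `R` is, modulo `m ^ (n+1)`, a polynomial in the universal family. -/
theorem univ_exists_poly {T : P.Tower} (L : T.Lim) (u : X → L.R)
    (hu : ∀ (n : ℕ) (x : X), L.π n (u x) = (T.pt n).r x) (n : ℕ) (y : L.R) :
    ∃ f : MvPolynomial X 𝒪, y - MvPolynomial.aeval u f ∈ maximalIdeal L.R ^ (n + 1) := by
  obtain ⟨f, hf⟩ := T.gen n (L.π n y)
  refine ⟨f, ?_⟩
  rw [← L.ker_π n, RingHom.mem_ker, map_sub, univ_π_aeval L u hu n f, hf, sub_self]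

omit [Finite (ResidueField 𝒪)] in
/-- An algebra map from `R` to an Artinian test algebra kills a power of the maximal ideal. -/
theorem univ_exists_ker_le {T : P.Tower} (L : T.Lim) {B : Type} [CommRing B] [IsLocalRing B]
    [Algebra 𝒪 B] (hB : IsArtinianTestAlgebra 𝒪 B) (q : L.R →ₐ[𝒪] B) :
    ∃ n : ℕ, ∀ m : ℕ, n ≤ m → ∀ y ∈ maximalIdeal L.R ^ (m + 1), q y = 0 := by
  obtain ⟨n, hn⟩ := IsArtinianTestAlgebra.exists_pow_maximalIdeal_eq_bot hB
  have hloc : IsLocalHom (q : L.R →+* B) :=
    isLocalHom_of_residue_surjective hB.residue_surjective q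
  refine ⟨n, fun m hm y hy => ?_⟩
  have h1 : (maximalIdeal L.R).map (q : L.R →+* B) ≤ maximalIdeal B := by
    rw [Ideal.map_le_iff_le_comap]
    intro a ha
    exact Ideal.mem_comap.mpr (map_nonunit (q : L.R →+* B) a ha)
  have h2 : (maximalIdeal L.R ^ (m + 1)).map (q : L.R →+* B) ≤ maximalIdeal B ^ (m + 1) := by
    rw [Ideal.map_pow]
    exact Ideal.pow_right_mono h1 _
  have h3 : maximalIdeal B ^ (m + 1) = ⊥ := by
    have hle : maximalIdeal B ^ (m + 1) ≤ maximalIdeal B ^ n :=
      Ideal.pow_le_pow_right (by omega)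
    rw [hn] at hle
    exact le_bot_iff.mp hle
  have h4 : q y ∈ (maximalIdeal L.R ^ (m + 1)).map (q : L.R →+* B) :=
    Ideal.mem_map_of_mem _ hy
  have h5 := h2 h4
  rw [h3] at h5
  exact (Ideal.mem_bot).mp h5

/-- A11. -/
theorem LiftProblem.Tower.Lim.univLift (hP : P.Axioms) {T : P.Tower} (L : T.Lim) :
    Nonempty P.UnivLift := by
  obtain ⟨u, hu⟩ := univ_exists_u L
  have hcomp : IsAdicComplete (maximalIdeal L.R) L.R := L.isAdicComplete hP
  have hlocal : IsLocalHom (algebraMap 𝒪 L.R) := L.isLocalHom_algebraMap hP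
  -- factorisation of an algebra map through a level of the tower
  have hfac : ∀ {B : Type} [CommRing B] [IsLocalRing B] [Algebra 𝒪 B],
      IsArtinianTestAlgebra 𝒪 B → ∀ q : L.R →ₐ[𝒪] B, ∃ (n : ℕ) (qb : (T.pt n).A →ₐ[𝒪] B),
        ∀ y, qb (L.π n y) = q y := by
    intro B _ _ _ hB q
    obtain ⟨n, hn⟩ := univ_exists_ker_le L hB q
    have hker : RingHom.ker (L.π n).toRingHom ≤ RingHom.ker q.toRingHom := by
      intro y hy
      have hy' : y ∈ RingHom.ker (L.π n) := hy
      rw [L.ker_π n] at hy'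
      exact hn n le_rfl y hy'
    refine ⟨n, AlgHom.liftOfSurjective (L.π n) (L.π_surj n) q hker, fun y => ?_⟩
    exact AlgHom.liftOfSurjective_apply (L.π n) (L.π_surj n) q hker y
  refine ⟨{
    R := L.R
    residue_surjective := L.residue_surjective hP
    u := u
    isLift := ?_
    existsUnique := ?_ }⟩
  · intro B _ _ _ hB q
    obtain ⟨n, qb, hqb⟩ := hfac hB q
    have h1 : (fun x => q (u x)) = fun x => qb ((T.pt n).r x) := by
      funext x
      rw [← hqb, hu n x]
    rw [h1]
    exact hP.push (T.pt n).art hB qb (T.pt n).hr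
  · intro B _ _ _ hB r hr
    -- existence
    let p : P.Pt := ⟨B, hB, r, hr⟩
    obtain ⟨n, hn⟩ := p.exists_pow_le_ker hP
    have hle : (T.pt n).ker ≤ p.ker := T.least n p hn
    have hker : RingHom.ker (T.pt n).ev.toRingHom ≤ RingHom.ker p.ev.toRingHom := hle
    let qb : (T.pt n).A →ₐ[𝒪] B := AlgHom.liftOfSurjective (T.pt n).ev (T.gen n) p.ev hker
    have hqb : ∀ f, qb ((T.pt n).ev f) = p.ev f := fun f =>
      AlgHom.liftOfSurjective_apply (T.pt n).ev (T.gen n) p.ev hker f
    refine ⟨qb.comp (L.π n), fun x => ?_, ?_⟩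
    · have h1 : (T.pt n).r x = (T.pt n).ev (MvPolynomial.X x) := by
        simp [LiftProblem.Pt.ev]
      show qb (L.π n (u x)) = r x
      rw [hu n x, h1, hqb]
      simp [LiftProblem.Pt.ev, p]
    · -- uniqueness: two algebra maps agreeing on `u` are equal
      have huniq : ∀ q₁ q₂ : L.R →ₐ[𝒪] B, (∀ x, q₁ (u x) = q₂ (u x)) → q₁ = q₂ := by
        intro q₁ q₂ h12
        obtain ⟨n₁, hn₁⟩ := univ_exists_ker_le L hB q₁
        obtain ⟨n₂, hn₂⟩ := univ_exists_ker_le L hB q₂
        apply AlgHom.ext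
        intro y
        obtain ⟨f, hf⟩ := univ_exists_poly L u hu (max n₁ n₂) y
        have e1 : q₁ y = q₁ (MvPolynomial.aeval u f) := by
          have := hn₁ (max n₁ n₂) (le_max_left _ _) _ hf
          rwa [map_sub, sub_eq_zero] at this
        have e2 : q₂ y = q₂ (MvPolynomial.aeval u f) := by
          have := hn₂ (max n₁ n₂) (le_max_right _ _) _ hf
          rwa [map_sub, sub_eq_zero] at this
        have e3 : q₁.comp (MvPolynomial.aeval u) = q₂.comp (MvPolynomial.aeval u) := by
          apply MvPolynomial.algHom_ext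
          intro x
          simp [h12 x]
        rw [e1, e2]
        exact DFunLike.congr_fun e3 f
      intro q' hq'
      apply huniq
      intro x
      rw [hq' x]
      have h1 : (T.pt n).r x = (T.pt n).ev (MvPolynomial.X x) := by
        simp [LiftProblem.Pt.ev]
      show r x = qb (L.π n (u x))
      rw [hu n x, h1, hqb]
      simp [LiftProblem.Pt.ev, p]

end Fermat.Agent.S53
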